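/-
Cluster E' (Mazur, S15), seat E-MC, leaf AN4a (helper47; sub-architect helper15):
**the analytic modular equation at all `p + 1` points over `j(τ)`**.

`anModEq p : AnModEqStatement p`: if `P(j(q), j(q^p)) = 0` in `ℚ((q))`, then
`P(j(τ), j(τ')) = 0` for `τ' = p τ` and for `p τ' = τ + a`, `a ∈ ℤ`.

Proof.  `τ' = p τ`: the function `τ ↦ P(j(τ), j(pτ))` has the expansion `P(j(u^p), j(u^(p p))) = 0`
in `u = exp(2πiτ/p)` (`HasExp` calculus of S24, `hasExp_jFun`, `hasExp_jd`), hence is `0`
(`HasExp.fun_unique`).  `p τ' = τ + a`: apply the first case to `σ = S T^a τ = -1/(τ + a)`: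
`j(σ) = j(τ)` and `p σ = -1/τ' = S τ'`, so `j(pσ) = j(τ')`.
-/
import Mathlib
import Fermat.Agent.E.MC.Statements
import Fermat.Agent.S24.GensExp
import Fermat.Agent.S24.JFun
import Fermat.Agent.S24.Invariants
import Fermat.Prelude.Def_ModularCurve_X0ModL
import Fermat.Prelude.Thm_ModularCurve_coeffMap_qExpand

set_option autoImplicit false

noncomputable section

namespace Fermat.Agent.EMC

open UpperHalfPlane Polynomial ModularCurve Fermat.Agent.S24
open scoped MatrixGroups

/-- evaluation at a point of `ℍ`, as a ring homomorphism. -/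
def amEvalAt (τ : ℍ) : Fun →+* ℂ where
  toFun f := f τ
  map_one' := rfl
  map_mul' _ _ := rfl
  map_zero' := rfl
  map_add' _ _ := rfl

theorem amEvalAt_apply (τ : ℍ) (f : Fun) : amEvalAt τ f = f τ := rfl

/-- the expansion of an integer. -/
theorem am_hasExp_intCast (M : ℕ) (n : ℤ) :
    HasExp M (Int.castRingHom Fun n) (Int.castRingHom (LaurentSeries Kbar) n) := by
  have h := HasExp.algebraMap M (n : Kbar)
  rwa [map_intCast, map_intCast] at h

/-- the expansion of `Q(f)`, `Q ∈ ℤ[X]`. -/
theorem am_hasExp_eval₂ {M : ℕ} [NeZero M] {f : Fun} {a : LaurentSeries Kbar}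
    (hf : HasExp M f a) (Q : Polynomial ℤ) :
    HasExp M (Q.eval₂ (Int.castRingHom Fun) f)
      (Q.eval₂ (Int.castRingHom (LaurentSeries Kbar)) a) := by
  induction Q using Polynomial.induction_on' with
  | add Q R hQ hR =>
    rw [eval₂_add, eval₂_add]
    exact hQ.add hR
  | monomial n c =>
    rw [eval₂_monomial, eval₂_monomial]
    refine (am_hasExp_intCast M c).mul ?_
    induction n with
    | zero =>
      rw [pow_zero, pow_zero]
      have h := am_hasExp_intCast M 1
      rwa [map_one, map_one] at h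
    | succ n ih =>
      rw [pow_succ, pow_succ]
      exact ih.mul hf

/-- the expansion of `P(f, g)`, `P ∈ ℤ[X][Y]`. -/
theorem am_hasExp_eval2 {M : ℕ} [NeZero M] {f g : Fun} {a b : LaurentSeries Kbar}
    (hf : HasExp M f a) (hg : HasExp M g b) (P : Polynomial (Polynomial ℤ)) :
    HasExp M (eval2 P f g) (eval2 P a b) := by
  unfold eval2
  induction P using Polynomial.induction_on' with
  | add Q R hQ hR =>
    rw [eval₂_add, eval₂_add]
    exact hQ.add hR
  | monomial n c =>
    rw [eval₂_monomial, eval₂_monomial]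
    refine (am_hasExp_eval₂ hf c).mul ?_
    induction n with
    | zero =>
      rw [pow_zero, pow_zero]
      have h := am_hasExp_intCast M 1
      rwa [map_one, map_one] at h
    | succ n ih =>
      rw [pow_succ, pow_succ]
      exact ih.mul hg

theorem am_eval2_apply (P : Polynomial (Polynomial ℤ)) (f g : Fun) (τ : ℍ) :
    (eval2 P f g) τ = eval2 P (f τ) (g τ) := by
  unfold eval2
  have h := Polynomial.hom_eval₂ P (Polynomial.eval₂RingHom (Int.castRingHom Fun) f)
    (amEvalAt τ) g
  rw [amEvalAt_apply] at h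
  rw [h, amEvalAt_apply]
  congr 1
  refine Polynomial.ringHom_ext' (Subsingleton.elim _ _) ?_
  simp [amEvalAt_apply]

/-- the formal relation over `ℚ̄`, in the variable `q ^ (1/1)` replaced by `u ^ p`. -/
theorem am_rel_Kbar (p : ℕ) [NeZero p] (P : Polynomial (Polynomial ℤ)) (hP : IsJRel p P) :
    eval2 P (qExpand Kbar p (jqModC Kbar)) (qExpand Kbar (p * p) (jqModC Kbar)) = 0 := by
  set φ : LaurentSeries ℚ →+* LaurentSeries Kbar :=
    (qExpand Kbar p).comp (coeffMap (algebraMap ℚ Kbar)) with hφ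
  have h1 := congrArg φ hP
  rw [map_zero, Polynomial.hom_eval₂] at h1
  have h2 : φ (jqN p) = qExpand Kbar (p * p) (jqModC Kbar) := by
    rw [hφ, RingHom.comp_apply, jqN, coeffMap_qExpand, qExpand_qExpand, ← jqModC_rat,
      coeffMap_jqModC]
  have h3 : φ.comp evalAtJ =
      Polynomial.eval₂RingHom (Int.castRingHom (LaurentSeries Kbar))
        (qExpand Kbar p (jqModC Kbar)) := by
    refine Polynomial.ringHom_ext' (Subsingleton.elim _ _) ?_
    rw [RingHom.comp_apply, evalAtJ_X, hφ, RingHom.comp_apply, ← jqModC_rat, coeffMap_jqModC]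
    simp
  rw [h2, h3] at h1
  exact h1

/-- the analytic modular equation at `τ' = p τ`. -/
theorem am_eval2_scale (p : ℕ) [NeZero p] (P : Polynomial (Polynomial ℤ)) (hP : IsJRel p P)
    (τ : ℍ) : eval2 P (jFun τ) (jFun (scale p τ)) = 0 := by
  have h1 : HasExp p jFun (qExpand Kbar p (jqModC Kbar)) := Fermat.Agent.S24Inv.hasExp_jFun p
  have h2 : HasExp p (jd p) (qExpand Kbar (p * p) (jqModC Kbar)) := hasExp_jd p p dvd_rfl
  have h3 := am_hasExp_eval2 h1 h2 P
  rw [am_rel_Kbar p P hP] at h3
  have h0 : HasExp p (0 : Fun) (0 : LaurentSeries Kbar) := by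
    have h := HasExp.algebraMap p (0 : Kbar)
    rwa [map_zero, map_zero] at h
  have h4 := HasExp.fun_unique h3 h0
  have h5 : (eval2 P jFun (jd p)) τ = (0 : Fun) τ := by rw [h4]
  rw [am_eval2_apply] at h5
  exact h5

/-- **AN4a.** -/
theorem anModEq (p : ℕ) [NeZero p] : AnModEqStatement p := by
  intro P hP τ τ' h
  have hp0 : (p : ℂ) ≠ 0 := by exact_mod_cast NeZero.ne p
  rcases h with h | ⟨a, ha⟩
  · have e : τ' = scale p τ := by
      apply UpperHalfPlane.ext
      rw [h, coe_scale]
    rw [e]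
    exact am_eval2_scale p P hP τ
  · -- `σ = S T^a τ`
    set σ : ℍ := ModularGroup.S • (ModularGroup.T ^ a • τ) with hσ
    have h1 : jFun σ = jFun τ := by
      rw [hσ, jFun_smul_apply, jFun_smul_apply]
    have hσc : (σ : ℂ) = -((τ : ℂ) + (a : ℂ))⁻¹ := by
      rw [hσ, UpperHalfPlane.modular_S_smul, UpperHalfPlane.modular_T_zpow_smul]
      simp only [UpperHalfPlane.coe_vadd]
      push_cast
      rw [add_comm (a : ℂ), inv_neg]
    have h2 : scale p σ = ModularGroup.S • τ' := by
      apply UpperHalfPlane.ext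
      rw [coe_scale, hσc, UpperHalfPlane.modular_S_smul, ← ha]
      have hτ' : (τ' : ℂ) ≠ 0 := UpperHalfPlane.ne_zero τ'
      field_simp
    have h3 : jFun (scale p σ) = jFun τ' := by
      rw [h2, jFun_smul_apply]
    have h4 := am_eval2_scale p P hP σ
    rw [h1, h3] at h4
    exact h4

end Fermat.Agent.EMC
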