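/-
Cluster E' (S15), seat E-MC / AN1 (helper15): derivatives of the Weierstrass functions.
`℘' = deriv ℘` (Mathlib) and `℘'' = 6 ℘² - g₂/2` (from Mathlib's differential equation).
-/
import Mathlib

set_option autoImplicit false

noncomputable section

namespace Fermat.Agent.EMC

open Filter Topology
open scoped PeriodPair

variable (L : PeriodPair)

theorem isOpen_compl_lattice : IsOpen ((L.lattice : Set ℂ)ᶜ) :=
  L.isClosed_lattice.isOpen_compl

theorem countable_lattice : (L.lattice : Set ℂ).Countable := by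
  have : Countable L.lattice := by
    have e := L.latticeEquivProd
    exact Countable.of_equiv _ e.symm.toEquiv
  exact Set.countable_coe_iff.mp this

/-- The complement of the lattice is preconnected. -/
theorem isPreconnected_compl_lattice : IsPreconnected ((L.lattice : Set ℂ)ᶜ) := by
  have h : 1 < Module.rank ℝ ℂ := by
    rw [Complex.rank_real_complex]
    norm_num
  exact ((countable_lattice L).isPathConnected_compl_of_one_lt_rank h).isConnected.isPreconnected

theorem hasDerivAt_wp {z : ℂ} (hz : z ∉ L.lattice) :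
    HasDerivAt ℘[L] (℘'[L] z) z := by
  have h1 : DifferentiableAt ℂ ℘[L] z :=
    (L.differentiableOn_weierstrassP z hz).differentiableAt
      ((isOpen_compl_lattice L).mem_nhds hz)
  have h2 := h1.hasDerivAt
  rwa [L.deriv_weierstrassP] at h2

theorem differentiableAt_wp' {z : ℂ} (hz : z ∉ L.lattice) : DifferentiableAt ℂ ℘'[L] z :=
  (L.differentiableOn_derivWeierstrassP z hz).differentiableAt
    ((isOpen_compl_lattice L).mem_nhds hz)

/-- `z² ℘(z) → 1` as `z → 0`. -/
theorem tendsto_sq_mul_wp :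
    Tendsto (fun z : ℂ => z ^ 2 * ℘[L] z) (𝓝[≠] 0) (𝓝 1) := by
  have h0 : (0 : ℂ) ∈ L.lattice := L.lattice.zero_mem
  have hcont : ContinuousAt ℘[L - (0 : ℂ)] 0 := (L.analyticAt_weierstrassPExcept 0).continuousAt
  have h1 : Tendsto (fun z : ℂ => z ^ 2 * ℘[L - (0 : ℂ)] z + 1) (𝓝 0) (𝓝 1) := by
    have : Tendsto (fun z : ℂ => z ^ 2 * ℘[L - (0 : ℂ)] z + 1) (𝓝 0)
        (𝓝 ((0 : ℂ) ^ 2 * ℘[L - (0 : ℂ)] 0 + 1)) :=
      (((continuousAt_id.pow 2).mul hcont).add continuousAt_const).tendsto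
    simpa using this
  refine (h1.mono_left nhdsWithin_le_nhds).congr' ?_
  filter_upwards [self_mem_nhdsWithin] with z hz
  have hz0 : z ≠ 0 := hz
  have := L.weierstrassPExcept_def ⟨0, h0⟩ z
  simp only [sub_zero] at this
  rw [this]
  field_simp
  ring

/-- `z³ ℘'(z) → -2` as `z → 0`. -/
theorem tendsto_cube_mul_wp' :
    Tendsto (fun z : ℂ => z ^ 3 * ℘'[L] z) (𝓝[≠] 0) (𝓝 (-2)) := by
  have h0 : (0 : ℂ) ∈ L.lattice := L.lattice.zero_mem
  have hcont : ContinuousAt ℘'[L - (0 : ℂ)] 0 :=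
    (L.analyticAt_derivWeierstrassPExcept 0).continuousAt
  have h1 : Tendsto (fun z : ℂ => z ^ 3 * ℘'[L - (0 : ℂ)] z - 2) (𝓝 0) (𝓝 (-2)) := by
    have : Tendsto (fun z : ℂ => z ^ 3 * ℘'[L - (0 : ℂ)] z - 2) (𝓝 0)
        (𝓝 ((0 : ℂ) ^ 3 * ℘'[L - (0 : ℂ)] 0 - 2)) :=
      (((continuousAt_id.pow 3).mul hcont).sub continuousAt_const).tendsto
    simpa using this
  refine (h1.mono_left nhdsWithin_le_nhds).congr' ?_
  filter_upwards [self_mem_nhdsWithin] with z hz
  have hz0 : z ≠ 0 := hz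
  have := L.derivWeierstrassPExcept_def ⟨0, h0⟩ z
  simp only [sub_zero] at this
  rw [this]
  field_simp
  ring

/-- Near `0` (and off `0`) we are off the lattice. -/
theorem eventually_notMem_lattice : ∀ᶠ z in 𝓝[≠] (0 : ℂ), z ∉ L.lattice := by
  have h := L.compl_lattice_sdiff_singleton_mem_nhds 0
  filter_upwards [nhdsWithin_le_nhds h, self_mem_nhdsWithin] with z hz hz0
  intro hmem
  exact hz ⟨hmem, hz0⟩

/-- `℘'` does not vanish identically near `0`. -/
theorem eventually_wp'_ne_zero : ∀ᶠ z in 𝓝[≠] (0 : ℂ), ℘'[L] z ≠ 0 := by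
  have h := tendsto_cube_mul_wp' L
  have h2 : ∀ᶠ z in 𝓝[≠] (0 : ℂ), z ^ 3 * ℘'[L] z ≠ 0 :=
    h.eventually_ne (by norm_num)
  filter_upwards [h2] with z hz
  intro h0
  exact hz (by rw [h0, mul_zero])

/-- `℘'' = 6 ℘² - g₂ / 2` off the lattice. -/
theorem hasDerivAt_wp' {z : ℂ} (hz : z ∉ L.lattice) :
    HasDerivAt ℘'[L] (6 * ℘[L] z ^ 2 - L.g₂ / 2) z := by
  set U : Set ℂ := (L.lattice : Set ℂ)ᶜ with hU
  have hUo : IsOpen U := isOpen_compl_lattice L
  -- the derivative of `℘'`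
  set D : ℂ → ℂ := deriv ℘'[L] with hD
  have hDz : ∀ w ∈ U, HasDerivAt ℘'[L] (D w) w := fun w hw =>
    (differentiableAt_wp' L hw).hasDerivAt
  -- differentiate the differential equation
  have hprod : ∀ w ∈ U, ℘'[L] w * (2 * D w - 12 * ℘[L] w ^ 2 + L.g₂) = 0 := by
    intro w hw
    have e1 : HasDerivAt (fun t => ℘'[L] t ^ 2) (2 * ℘'[L] w * D w) w := by
      have := (hDz w hw).fun_pow 2
      simpa [mul_comm, mul_assoc, mul_left_comm] using this
    have e2 : HasDerivAt (fun t => 4 * ℘[L] t ^ 3 - L.g₂ * ℘[L] t - L.g₃)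
        (4 * (3 * ℘[L] w ^ 2 * ℘'[L] w) - L.g₂ * ℘'[L] w) w := by
      have h3 := (hasDerivAt_wp L hw).fun_pow 3
      have h4 := ((h3.const_mul 4).sub ((hasDerivAt_wp L hw).const_mul L.g₂)).sub_const L.g₃
      simpa using h4
    have heq : (fun t => ℘'[L] t ^ 2) =ᶠ[𝓝 w]
        (fun t => 4 * ℘[L] t ^ 3 - L.g₂ * ℘[L] t - L.g₃) := by
      filter_upwards [hUo.mem_nhds hw] with t ht
      exact L.derivWeierstrassP_sq t ht
    have := (e1.congr_of_eventuallyEq heq.symm).unique e2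
    linear_combination this
  -- `G := 2 D - 12 ℘² + g₂` is analytic on `U`
  have hanD : AnalyticOnNhd ℂ D U := L.analyticOnNhd_derivWeierstrassP.deriv
  have hanP : AnalyticOnNhd ℂ ℘[L] U := L.analyticOnNhd_weierstrassP
  have hanG : AnalyticOnNhd ℂ (fun w => 2 * D w - 12 * ℘[L] w ^ 2 + L.g₂) U := by
    intro w hw
    have a1 := hanD w hw
    have a2 := hanP w hw
    fun_prop
  -- `G = 0` on `U`
  have hG : ∀ w ∈ U, 2 * D w - 12 * ℘[L] w ^ 2 + L.g₂ = 0 := by
    intro w hw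
    by_contra hne
    -- `G ≠ 0` near `w`, so `℘' = 0` near `w`
    have hGc : ContinuousAt (fun w => 2 * D w - 12 * ℘[L] w ^ 2 + L.g₂) w :=
      (hanG w hw).continuousAt
    have h1 : ∀ᶠ t in 𝓝 w, ℘'[L] t = 0 := by
      filter_upwards [hGc.eventually_ne hne, hUo.mem_nhds hw] with t ht htU
      rcases mul_eq_zero.mp (hprod t htU) with h | h
      · exact h
      · exact absurd h ht
    -- hence `℘' = 0` on `U`
    have h2 : Set.EqOn ℘'[L] 0 U :=
      L.analyticOnNhd_derivWeierstrassP.eqOn_zero_of_preconnected_of_eventuallyEq_zero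
        (isPreconnected_compl_lattice L) hw h1
    -- contradiction near `0`
    obtain ⟨t, ht1, ht2⟩ := ((eventually_wp'_ne_zero L).and (eventually_notMem_lattice L)).exists
    exact ht1 (h2 ht2)
  have hz' : z ∈ U := hz
  have h3 := hDz z hz'
  have h4 := hG z hz'
  have h5 : D z = 6 * ℘[L] z ^ 2 - L.g₂ / 2 := by linear_combination h4 / 2
  rwa [h5] at h3

end Fermat.Agent.EMC
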