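/-
Cluster E' (S15), seat E-MC / AN1 (helper15): the chord functions of `(℘, ℘')` have derivative zero.
For `u ∉ Λ` and `ε` with `ε, u + ε ∉ Λ`, `℘(u+ε) ≠ ℘(ε)`:
  `m = (℘'(u+ε) + ℘'(ε)) / (℘(u+ε) - ℘(ε))`, `X = m²/4 - ℘(u+ε) - ℘(ε)`, `Q = -(m (X - ℘(u+ε)) + ℘'(u+ε))`
(the coordinates `(X, Q/2)` of `π(u+ε) - π(ε)`), and `dX/dε = 0`, `dQ/dε = 0`.
-/
import Fermat.Agent.E.MC.WPDeriv

set_option autoImplicit false

noncomputable section

namespace Fermat.Agent.EMC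

open Filter Topology
open scoped PeriodPair

variable (L : PeriodPair)

/-- The (doubled) slope of the chord through `π(u+ε)` and `-π(ε)`. -/
def chordM (u ε : ℂ) : ℂ := (℘'[L] (u + ε) + ℘'[L] ε) / (℘[L] (u + ε) - ℘[L] ε)

/-- The `x`-coordinate of `π(u+ε) - π(ε)`. -/
def chordX (u ε : ℂ) : ℂ := chordM L u ε ^ 2 / 4 - ℘[L] (u + ε) - ℘[L] ε

/-- Twice the `y`-coordinate of `π(u+ε) - π(ε)`. -/
def chordQ (u ε : ℂ) : ℂ :=
  -(chordM L u ε * (chordX L u ε - ℘[L] (u + ε)) + ℘'[L] (u + ε))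

/-- The set of good `ε`. -/
def chordGood (u : ℂ) : Set ℂ :=
  {ε | ε ∉ L.lattice ∧ u + ε ∉ L.lattice ∧ ℘[L] (u + ε) ≠ ℘[L] ε}

variable {L}

theorem hasDerivAt_wp_shift {u ε : ℂ} (h : u + ε ∉ L.lattice) :
    HasDerivAt (fun t => ℘[L] (u + t)) (℘'[L] (u + ε)) ε := by
  have := (hasDerivAt_wp L h).comp_const_add u ε
  simpa using this

theorem hasDerivAt_wp'_shift {u ε : ℂ} (h : u + ε ∉ L.lattice) :
    HasDerivAt (fun t => ℘'[L] (u + t)) (6 * ℘[L] (u + ε) ^ 2 - L.g₂ / 2) ε := by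
  have := (hasDerivAt_wp' L h).comp_const_add u ε
  simpa using this

theorem hasDerivAt_chordM {u ε : ℂ} (h : ε ∈ chordGood L u) :
    HasDerivAt (chordM L u) (2 * (℘[L] (u + ε) - ℘[L] ε)) ε := by
  obtain ⟨h1, h2, h3⟩ := h
  have hne : ℘[L] (u + ε) - ℘[L] ε ≠ 0 := sub_ne_zero.mpr h3
  have e1 := (hasDerivAt_wp'_shift (L := L) h2).add (hasDerivAt_wp' L h1)
  have e2 := (hasDerivAt_wp_shift (L := L) h2).sub (hasDerivAt_wp L h1)
  have e3 := e1.div e2 hne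
  have hq1 := L.derivWeierstrassP_sq (u + ε) h2
  have hq2 := L.derivWeierstrassP_sq ε h1
  refine e3.congr_deriv ?_
  simp only [Pi.add_apply, Pi.sub_apply]
  field_simp
  linear_combination (-2 : ℂ) * hq1 + 2 * hq2

theorem chordM_mul {u ε : ℂ} (h : ε ∈ chordGood L u) :
    chordM L u ε * (℘[L] (u + ε) - ℘[L] ε) = ℘'[L] (u + ε) + ℘'[L] ε := by
  obtain ⟨h1, h2, h3⟩ := h
  have hne : ℘[L] (u + ε) - ℘[L] ε ≠ 0 := sub_ne_zero.mpr h3
  rw [chordM]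
  field_simp

theorem hasDerivAt_chordX {u ε : ℂ} (h : ε ∈ chordGood L u) :
    HasDerivAt (chordX L u) 0 ε := by
  have hM := hasDerivAt_chordM h
  have hmul := chordM_mul h
  obtain ⟨h1, h2, h3⟩ := h
  have e1 := ((hM.fun_pow 2).div_const 4).sub (hasDerivAt_wp_shift (L := L) h2)
  have e2 := e1.sub (hasDerivAt_wp L h1)
  refine e2.congr_deriv ?_
  simp only [Nat.cast_ofNat, Nat.add_one_sub_one, pow_one]
  linear_combination hmul

theorem hasDerivAt_chordQ {u ε : ℂ} (h : ε ∈ chordGood L u) :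
    HasDerivAt (chordQ L u) 0 ε := by
  have hM := hasDerivAt_chordM h
  have hX := hasDerivAt_chordX h
  have hmul := chordM_mul h
  obtain ⟨h1, h2, h3⟩ := h
  have hne : ℘[L] (u + ε) - ℘[L] ε ≠ 0 := sub_ne_zero.mpr h3
  have hq1 := L.derivWeierstrassP_sq (u + ε) h2
  have hq2 := L.derivWeierstrassP_sq ε h1
  have e1 := (hM.mul (hX.sub (hasDerivAt_wp_shift (L := L) h2))).add
    (hasDerivAt_wp'_shift (L := L) h2)
  have e2 := e1.neg
  refine e2.congr_deriv ?_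
  -- `2 (p₁ - p₂)(X - p₁) - m q₁ + 6 p₁² - g₂/2 = 0`
  have hXdef : chordX L u ε = chordM L u ε ^ 2 / 4 - ℘[L] (u + ε) - ℘[L] ε := rfl
  have hkey : chordM L u ε * (℘'[L] ε - ℘'[L] (u + ε)) =
      -(4 * (℘[L] (u + ε) ^ 2 + ℘[L] (u + ε) * ℘[L] ε + ℘[L] ε ^ 2) - L.g₂) := by
    apply mul_left_cancel₀ hne
    linear_combination (℘'[L] ε - ℘'[L] (u + ε)) * hmul + hq2 - hq1
  simp only [Pi.sub_apply, zero_sub]
  rw [hXdef]
  linear_combination (-(chordM L u ε) / 2) * hmul - (1 / 2 : ℂ) * hkey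

end Fermat.Agent.EMC
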