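/-
Cluster E' (S15), seat E-MC / AN1 (helper15): the chord functions are constant near `0`:
for `u ∉ Λ` and all small `ε ≠ 0`:  `chordX L u ε = ℘(u)` and `chordQ L u ε = ℘'(u)`,
i.e. `π(u + ε) - π(ε) = π(u)` (local addition theorem).
-/
import Fermat.Agent.E.MC.Chord

set_option autoImplicit false

noncomputable section

namespace Fermat.Agent.EMC

open Filter Topology
open scoped PeriodPair

/-- A function with derivative `0` on a punctured neighbourhood of `0` and limit `c` at `0` is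
eventually equal to `c`. -/
theorem eventually_eq_of_hasDerivAt_zero_of_tendsto {f : ℂ → ℂ} {c : ℂ}
    (h : ∀ᶠ ε in 𝓝[≠] (0 : ℂ), HasDerivAt f 0 ε) (hlim : Tendsto f (𝓝[≠] (0 : ℂ)) (𝓝 c)) :
    ∀ᶠ ε in 𝓝[≠] (0 : ℂ), f ε = c := by
  rw [eventually_nhdsWithin_iff, Metric.eventually_nhds_iff] at h
  obtain ⟨r, hr, hball⟩ := h
  rw [eventually_nhdsWithin_iff, Metric.eventually_nhds_iff]
  refine ⟨r, hr, fun ε₀ hε₀ hne => ?_⟩
  have hne0 : ε₀ ≠ 0 := hne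
  have hnorm : ‖ε₀‖ < r := by simpa [dist_eq_norm] using hε₀
  have hnpos : 0 < ‖ε₀‖ := norm_pos_iff.mpr hne0
  set T : Set ℂ := Metric.ball 0 r ∩ {z | 0 < (z * (starRingEnd ℂ) ε₀).re} with hT
  have hTopen : IsOpen T := by
    refine Metric.isOpen_ball.inter ?_
    have hc : Continuous fun z : ℂ => (z * (starRingEnd ℂ) ε₀).re := by fun_prop
    exact isOpen_lt continuous_const hc
  have hTconv : Convex ℝ T := by
    refine (convex_ball 0 r).inter ?_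
    have hlin : IsLinearMap ℝ (fun z : ℂ => z * (starRingEnd ℂ) ε₀) :=
      ⟨fun x y => add_mul x y _, fun t x => by simp [mul_assoc]⟩
    exact (convex_halfSpace_re_gt 0).is_linear_preimage hlin
  have hTd : ∀ z ∈ T, HasDerivAt f 0 z := by
    rintro z ⟨hz1, hz2⟩
    refine hball hz1 ?_
    rintro rfl
    simp at hz2
  have hre : ∀ t : ℝ, ((t : ℂ) * ε₀ * (starRingEnd ℂ) ε₀).re = t * ‖ε₀‖ ^ 2 := by
    intro t
    rw [mul_assoc, Complex.mul_conj, ← Complex.ofReal_mul, Complex.ofReal_re, Complex.normSq_eq_norm_sq]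
  have hmemT : ∀ t : ℝ, 0 < t → t ≤ 1 → (t : ℂ) * ε₀ ∈ T := by
    intro t ht0 ht1
    refine ⟨?_, ?_⟩
    · rw [Metric.mem_ball, dist_zero_right, norm_mul, Complex.norm_real, Real.norm_eq_abs,
        abs_of_pos ht0]
      calc t * ‖ε₀‖ ≤ 1 * ‖ε₀‖ := by gcongr
        _ = ‖ε₀‖ := one_mul _
        _ < r := hnorm
    · show 0 < ((t : ℂ) * ε₀ * (starRingEnd ℂ) ε₀).re
      rw [hre]
      positivity
  have hε₀T : ε₀ ∈ T := by
    have := hmemT 1 one_pos le_rfl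
    simpa using this
  have hconst : ∀ z ∈ T, f z = f ε₀ := fun z hz =>
    hTopen.is_const_of_deriv_eq_zero hTconv.isPreconnected
      (fun w hw => (hTd w hw).differentiableAt.differentiableWithinAt)
      (fun w hw => (hTd w hw).deriv) hz hε₀T
  -- the sequence `ε₀ / (n + 1) → 0`
  have hseq0 : Tendsto (fun n : ℕ => (((1 / ((n : ℝ) + 1) : ℝ)) : ℂ) * ε₀) atTop (𝓝 0) := by
    have h1 : Tendsto (fun n : ℕ => (((1 / ((n : ℝ) + 1) : ℝ)) : ℂ)) atTop (𝓝 ((0 : ℝ) : ℂ)) :=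
      (Complex.continuous_ofReal.tendsto 0).comp tendsto_one_div_add_atTop_nhds_zero_nat
    have h2 := h1.mul_const ε₀
    simpa using h2
  have hpos : ∀ n : ℕ, 0 < 1 / ((n : ℝ) + 1) := fun n => by positivity
  have hle : ∀ n : ℕ, 1 / ((n : ℝ) + 1) ≤ 1 := fun n => by
    rw [div_le_one (by positivity)]
    have : (0 : ℝ) ≤ n := Nat.cast_nonneg n
    linarith
  have hseq : Tendsto (fun n : ℕ => (((1 / ((n : ℝ) + 1) : ℝ)) : ℂ) * ε₀) atTop (𝓝[≠] 0) := by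
    rw [tendsto_nhdsWithin_iff]
    refine ⟨hseq0, Eventually.of_forall fun n => ?_⟩
    have hp := hpos n
    simp only [Set.mem_compl_iff, Set.mem_singleton_iff, mul_eq_zero, Complex.ofReal_eq_zero,
      not_or]
    exact ⟨hp.ne', hne0⟩
  have h1 := hlim.comp hseq
  have h2 : (f ∘ fun n : ℕ => (((1 / ((n : ℝ) + 1) : ℝ)) : ℂ) * ε₀) = fun _ => f ε₀ := by
    funext n
    exact hconst _ (hmemT _ (hpos n) (hle n))
  rw [h2] at h1
  exact tendsto_nhds_unique tendsto_const_nhds h1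

variable {L : PeriodPair}

theorem tendsto_self_punctured : Tendsto (fun ε : ℂ => ε) (𝓝[≠] (0 : ℂ)) (𝓝 0) :=
  tendsto_id.mono_left nhdsWithin_le_nhds

theorem tendsto_const_add_punctured (u : ℂ) :
    Tendsto (fun ε : ℂ => u + ε) (𝓝[≠] (0 : ℂ)) (𝓝 u) := by
  have h : Tendsto (fun ε : ℂ => u + ε) (𝓝 0) (𝓝 (u + 0)) :=
    (continuous_const.add continuous_id).tendsto 0
  rw [add_zero] at h
  exact h.mono_left nhdsWithin_le_nhds

theorem tendsto_wp_shift {u : ℂ} (hu : u ∉ L.lattice) :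
    Tendsto (fun ε : ℂ => ℘[L] (u + ε)) (𝓝[≠] (0 : ℂ)) (𝓝 (℘[L] u)) :=
  (hasDerivAt_wp L hu).continuousAt.tendsto.comp (tendsto_const_add_punctured u)

theorem tendsto_wp'_shift {u : ℂ} (hu : u ∉ L.lattice) :
    Tendsto (fun ε : ℂ => ℘'[L] (u + ε)) (𝓝[≠] (0 : ℂ)) (𝓝 (℘'[L] u)) :=
  (hasDerivAt_wp' L hu).continuousAt.tendsto.comp (tendsto_const_add_punctured u)

/-- **B4** eventually good. -/
theorem eventually_chordGood {u : ℂ} (hu : u ∉ L.lattice) :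
    ∀ᶠ ε in 𝓝[≠] (0 : ℂ), ε ∈ chordGood L u := by
  have h1 := eventually_notMem_lattice L
  have h2 : ∀ᶠ ε in 𝓝[≠] (0 : ℂ), u + ε ∉ L.lattice :=
    (tendsto_const_add_punctured u).eventually ((isOpen_compl_lattice L).mem_nhds hu)
  have h3 : ∀ᶠ ε in 𝓝[≠] (0 : ℂ), ℘[L] (u + ε) ≠ ℘[L] ε := by
    have hA : Tendsto (fun ε : ℂ => ε ^ 2 * ℘[L] ε - ε ^ 2 * ℘[L] (u + ε)) (𝓝[≠] (0 : ℂ))
        (𝓝 (1 - 0 ^ 2 * ℘[L] u)) :=
      (tendsto_sq_mul_wp L).sub ((tendsto_self_punctured.pow 2).mul (tendsto_wp_shift hu))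
    have hne : (1 - 0 ^ 2 * ℘[L] u : ℂ) ≠ 0 := by norm_num
    filter_upwards [hA.eventually_ne hne] with ε hε heq
    apply hε
    rw [heq, sub_self]
  filter_upwards [h1, h2, h3] with ε a b c
  exact ⟨a, b, c⟩

/-- the tuple `(ε, ℘(u+ε), ℘'(u+ε), ε²℘(ε), ε³℘'(ε)) → (0, ℘(u), ℘'(u), 1, -2)`. -/
theorem tendsto_chord_tuple {u : ℂ} (hu : u ∉ L.lattice) :
    Tendsto (fun ε : ℂ => (ε, ℘[L] (u + ε), ℘'[L] (u + ε), ε ^ 2 * ℘[L] ε, ε ^ 3 * ℘'[L] ε))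
      (𝓝[≠] (0 : ℂ)) (𝓝 (0, ℘[L] u, ℘'[L] u, 1, -2)) :=
  tendsto_self_punctured.prodMk_nhds ((tendsto_wp_shift hu).prodMk_nhds
    ((tendsto_wp'_shift hu).prodMk_nhds ((tendsto_sq_mul_wp L).prodMk_nhds
      (tendsto_cube_mul_wp' L))))

/-- **B5** `chordX L u ε → ℘(u)` as `ε → 0`. -/
theorem tendsto_chordX {u : ℂ} (hu : u ∉ L.lattice) :
    Tendsto (chordX L u) (𝓝[≠] (0 : ℂ)) (𝓝 (℘[L] u)) := by
  -- numerator and denominator as continuous functions of the tuple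
  set num : ℂ × ℂ × ℂ × ℂ × ℂ → ℂ := fun t =>
    t.1 ^ 4 * t.2.2.1 ^ 2 + 2 * (t.1 * t.2.2.1) * t.2.2.2.2 - L.g₂ * t.1 ^ 2 * t.2.2.2.1
      - L.g₃ * t.1 ^ 4 - 8 * t.1 ^ 4 * t.2.1 ^ 3 + 12 * (t.1 ^ 2 * t.2.1 ^ 2) * t.2.2.2.1 with hnum
  set den : ℂ × ℂ × ℂ × ℂ × ℂ → ℂ := fun t => 4 * (t.1 ^ 2 * t.2.1 - t.2.2.2.1) ^ 2 with hden
  have hnumc : Continuous num := by fun_prop
  have hdenc : Continuous den := by fun_prop
  have ht := tendsto_chord_tuple (L := L) hu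
  have h1 := (hnumc.tendsto _).comp ht
  have h2 := (hdenc.tendsto _).comp ht
  have hd0 : den (0, ℘[L] u, ℘'[L] u, 1, -2) ≠ 0 := by
    simp only [hden]
    norm_num
  have h3 := (tendsto_wp_shift hu).add (h1.div h2 hd0)
  have hval : ℘[L] u + num (0, ℘[L] u, ℘'[L] u, 1, -2) / den (0, ℘[L] u, ℘'[L] u, 1, -2)
      = ℘[L] u := by
    simp only [hnum, hden]
    norm_num
  rw [hval] at h3
  refine h3.congr' ?_
  filter_upwards [eventually_chordGood hu, self_mem_nhdsWithin] with ε hε hε0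
  obtain ⟨g1, g2, g3⟩ := hε
  have hε0' : ε ≠ 0 := hε0
  have hne : ℘[L] (u + ε) - ℘[L] ε ≠ 0 := sub_ne_zero.mpr g3
  have hq2 := L.derivWeierstrassP_sq ε g1
  simp only [Pi.div_apply, Function.comp_apply, hnum, hden, chordX, chordM]
  have hne2 : ε ^ 2 * ℘[L] (u + ε) - ε ^ 2 * ℘[L] ε ≠ 0 := by
    rw [← mul_sub]
    exact mul_ne_zero (pow_ne_zero 2 hε0') hne
  field_simp
  linear_combination (-1 : ℂ) * hq2

end Fermat.Agent.EMC
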