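/-
Cluster E' (S15), seat E-MC / AN1 (helper15): the local addition theorem in coordinates:
for `u ∉ Λ` and all small `ε ≠ 0`:  `chordX L u ε = ℘(u)` and `chordQ L u ε = ℘'(u)`.
-/
import Fermat.Agent.E.MC.ChordLim

set_option autoImplicit false

noncomputable section

namespace Fermat.Agent.EMC

open Filter Topology
open scoped PeriodPair

variable {L : PeriodPair}

/-- **B6** `chordX L u ε = ℘(u)` for all small `ε ≠ 0`. -/
theorem eventually_chordX_eq {u : ℂ} (hu : u ∉ L.lattice) :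
    ∀ᶠ ε in 𝓝[≠] (0 : ℂ), chordX L u ε = ℘[L] u :=
  eventually_eq_of_hasDerivAt_zero_of_tendsto
    ((eventually_chordGood hu).mono fun _ h => hasDerivAt_chordX h) (tendsto_chordX hu)

/-- `ε · chordM L u ε → 2`. -/
theorem tendsto_mul_chordM {u : ℂ} (hu : u ∉ L.lattice) :
    Tendsto (fun ε : ℂ => ε * chordM L u ε) (𝓝[≠] (0 : ℂ)) (𝓝 2) := by
  set num : ℂ × ℂ × ℂ × ℂ × ℂ → ℂ := fun t => t.1 ^ 3 * t.2.2.1 + t.2.2.2.2 with hnum
  set den : ℂ × ℂ × ℂ × ℂ × ℂ → ℂ := fun t => t.1 ^ 2 * t.2.1 - t.2.2.2.1 with hden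
  have hnumc : Continuous num := by fun_prop
  have hdenc : Continuous den := by fun_prop
  have ht := tendsto_chord_tuple (L := L) hu
  have h1 := (hnumc.tendsto _).comp ht
  have h2 := (hdenc.tendsto _).comp ht
  have hd0 : den (0, ℘[L] u, ℘'[L] u, 1, -2) ≠ 0 := by
    simp only [hden]
    norm_num
  have h3 := h1.div h2 hd0
  have hval : num (0, ℘[L] u, ℘'[L] u, 1, -2) / den (0, ℘[L] u, ℘'[L] u, 1, -2) = 2 := by
    simp only [hnum, hden]
    norm_num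
  rw [hval] at h3
  refine h3.congr' ?_
  filter_upwards [eventually_chordGood hu, self_mem_nhdsWithin] with ε hε hε0
  obtain ⟨g1, g2, g3⟩ := hε
  have hε0' : ε ≠ 0 := hε0
  have hne : ℘[L] (u + ε) - ℘[L] ε ≠ 0 := sub_ne_zero.mpr g3
  simp only [Pi.div_apply, Function.comp_apply, hnum, hden, chordM]
  have hne2 : ε ^ 2 * ℘[L] (u + ε) - ε ^ 2 * ℘[L] ε ≠ 0 := by
    rw [← mul_sub]
    exact mul_ne_zero (pow_ne_zero 2 hε0') hne
  field_simp

/-- the slope of `℘` at `u`. -/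
theorem tendsto_slope_wp {u : ℂ} (hu : u ∉ L.lattice) :
    Tendsto (fun ε : ℂ => ε⁻¹ * (℘[L] (u + ε) - ℘[L] u)) (𝓝[≠] (0 : ℂ)) (𝓝 (℘'[L] u)) := by
  have h := (hasDerivAt_iff_tendsto_slope_zero.mp (hasDerivAt_wp L hu))
  simpa [smul_eq_mul] using h

/-- **B7** `chordQ L u ε → ℘'(u)`. -/
theorem tendsto_chordQ {u : ℂ} (hu : u ∉ L.lattice) :
    Tendsto (chordQ L u) (𝓝[≠] (0 : ℂ)) (𝓝 (℘'[L] u)) := by
  have h1 := ((tendsto_mul_chordM hu).mul (tendsto_slope_wp hu)).sub (tendsto_wp'_shift hu)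
  have hval : (2 : ℂ) * ℘'[L] u - ℘'[L] u = ℘'[L] u := by ring
  rw [hval] at h1
  refine h1.congr' ?_
  filter_upwards [eventually_chordX_eq hu, self_mem_nhdsWithin] with ε hX hε0
  have hε0' : ε ≠ 0 := hε0
  simp only [chordQ, hX]
  field_simp
  ring

/-- `chordQ L u ε = ℘'(u)` for all small `ε ≠ 0`. -/
theorem eventually_chordQ_eq {u : ℂ} (hu : u ∉ L.lattice) :
    ∀ᶠ ε in 𝓝[≠] (0 : ℂ), chordQ L u ε = ℘'[L] u :=
  eventually_eq_of_hasDerivAt_zero_of_tendsto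
    ((eventually_chordGood hu).mono fun _ h => hasDerivAt_chordQ h) (tendsto_chordQ hu)

/-- **the local addition theorem in coordinates**. -/
theorem eventually_chord {u : ℂ} (hu : u ∉ L.lattice) :
    ∀ᶠ ε in 𝓝[≠] (0 : ℂ), ε ∈ chordGood L u ∧ chordX L u ε = ℘[L] u ∧
      chordQ L u ε = ℘'[L] u := by
  filter_upwards [eventually_chordGood hu, eventually_chordX_eq hu, eventually_chordQ_eq hu]
    with ε a b c
  exact ⟨a, b, c⟩

end Fermat.Agent.EMC
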