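/-
Cluster E' (S15), seat E-MC / AN1 (helper15): **the addition theorem** for `(℘, ℘'/2)`:
`latMap L : ℂ → E_Λ(ℂ)` is additive (given AN0 = `LatCurveStatement`).
-/
import Fermat.Agent.E.MC.ChordConst
import Fermat.Agent.E.MC.Statements

set_option autoImplicit false
set_option linter.unusedSectionVars false

noncomputable section

namespace Fermat.Agent.EMC

open Filter Topology WeierstrassCurve
open scoped PeriodPair

variable [DecidableEq ℂ] {L : PeriodPair}

theorem latMap_of_mem {z : ℂ} (hz : z ∈ L.lattice) : latMap L z = 0 := by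
  unfold latMap
  rw [dif_neg]
  exact fun h => h.1 hz

/-- `latMap` only depends on `℘(z)`, `℘'(z)` and on whether `z ∈ Λ`. -/
theorem latMap_congr {z z' : ℂ} (h1 : ℘[L] z = ℘[L] z') (h2 : ℘'[L] z = ℘'[L] z')
    (h3 : z ∈ L.lattice ↔ z' ∈ L.lattice) : latMap L z = latMap L z' := by
  unfold latMap
  by_cases h : z ∉ L.lattice ∧ (latE L).toAffine.Nonsingular (℘[L] z) (℘'[L] z / 2)
  · have h' : z' ∉ L.lattice ∧ (latE L).toAffine.Nonsingular (℘[L] z') (℘'[L] z' / 2) := by
      rw [← h1, ← h2, ← h3]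
      exact h
    rw [dif_pos h, dif_pos h', Affine.Point.some.injEq]
    exact ⟨h1, by rw [h2]⟩
  · have h' : ¬ (z' ∉ L.lattice ∧ (latE L).toAffine.Nonsingular (℘[L] z') (℘'[L] z' / 2)) := by
      rw [← h1, ← h2, ← h3]
      exact h
    rw [dif_neg h, dif_neg h']

theorem latMap_add_mem (z : ℂ) {l : ℂ} (hl : l ∈ L.lattice) : latMap L (z + l) = latMap L z := by
  refine latMap_congr (L.weierstrassP_add_coe z ⟨l, hl⟩) (L.derivWeierstrassP_add_coe z ⟨l, hl⟩) ?_
  constructor
  · intro h
    have := L.lattice.sub_mem h hl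
    simpa using this
  · intro h
    exact L.lattice.add_mem h hl

theorem latMap_mem_add (z : ℂ) {l : ℂ} (hl : l ∈ L.lattice) : latMap L (l + z) = latMap L z := by
  rw [add_comm]
  exact latMap_add_mem z hl

theorem latE_negY (x y : ℂ) : (latE L).toAffine.negY x y = -y := by
  simp [Affine.negY, latE]

theorem latMap_neg (z : ℂ) : latMap L (-z) = -latMap L z := by
  unfold latMap
  by_cases h : z ∉ L.lattice ∧ (latE L).toAffine.Nonsingular (℘[L] z) (℘'[L] z / 2)
  · have hn : (latE L).toAffine.Nonsingular (℘[L] z) (-(℘'[L] z / 2)) := by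
      have := (Affine.nonsingular_neg (W' := (latE L).toAffine) (℘[L] z) (℘'[L] z / 2)).mpr h.2
      rwa [latE_negY] at this
    have h' : -z ∉ L.lattice ∧
        (latE L).toAffine.Nonsingular (℘[L] (-z)) (℘'[L] (-z) / 2) := by
      rw [L.weierstrassP_neg, L.derivWeierstrassP_neg, neg_div]
      refine ⟨fun hm => h.1 ?_, hn⟩
      simpa using L.lattice.neg_mem hm
    rw [dif_pos h, dif_pos h', Affine.Point.neg_some, Affine.Point.some.injEq]
    refine ⟨L.weierstrassP_neg z, ?_⟩
    rw [latE_negY, L.derivWeierstrassP_neg, neg_div]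
  · have h' : ¬ (-z ∉ L.lattice ∧
        (latE L).toAffine.Nonsingular (℘[L] (-z)) (℘'[L] (-z) / 2)) := by
      rintro ⟨a, b⟩
      apply h
      rw [L.weierstrassP_neg, L.derivWeierstrassP_neg, neg_div] at b
      refine ⟨fun hm => a (L.lattice.neg_mem hm), ?_⟩
      have := (Affine.nonsingular_neg (W' := (latE L).toAffine) (℘[L] z) (-(℘'[L] z / 2))).mpr b
      rwa [latE_negY, neg_neg] at this
    rw [dif_neg h, dif_neg h', Affine.Point.neg_zero]

/-- **B8** the local addition theorem: `π(u + ε) = π(u) + π(ε)` for all small `ε ≠ 0`. -/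
theorem eventually_latMap_add (h0 : LatCurveStatement) {u : ℂ} (hu : u ∉ L.lattice) :
    ∀ᶠ ε in 𝓝[≠] (0 : ℂ), latMap L (u + ε) = latMap L u + latMap L ε := by
  filter_upwards [eventually_chord (L := L) hu] with ε hε
  obtain ⟨⟨g1, g2, g3⟩, hX, hQ⟩ := hε
  obtain ⟨n1, e1⟩ := (h0 L).2 (u + ε) g2
  obtain ⟨n2, e2⟩ := (h0 L).2 ε g1
  obtain ⟨n3, e3⟩ := (h0 L).2 u hu
  have hsub : latMap L (u + ε) + -latMap L ε = latMap L u := by
    rw [e1, e2, e3, Affine.Point.neg_some, Affine.Point.add_of_X_ne g3, Affine.Point.some.injEq]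
    have hsl : (latE L).toAffine.slope (℘[L] (u + ε)) (℘[L] ε) (℘'[L] (u + ε) / 2)
        ((latE L).toAffine.negY (℘[L] ε) (℘'[L] ε / 2)) = chordM L u ε / 2 := by
      rw [Affine.slope_of_X_ne g3, latE_negY, chordM]
      have hne : ℘[L] (u + ε) - ℘[L] ε ≠ 0 := sub_ne_zero.mpr g3
      field_simp
      ring
    have hXX : (latE L).toAffine.addX (℘[L] (u + ε)) (℘[L] ε) (chordM L u ε / 2)
        = chordX L u ε := by
      simp only [Affine.addX, latE, chordX]
      ring
    refine ⟨?_, ?_⟩
    · rw [hsl, hXX, hX]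
    · rw [hsl, Affine.addY, Affine.negAddY, latE_negY, hXX, ← hQ, chordQ]
      ring
  rw [← hsub]
  abel

/-- **AN1, the addition theorem**: `z ↦ (℘(z), ℘'(z)/2)` is additive. -/
theorem latAdd (h0 : LatCurveStatement) : LatAddStatement := by
  intro L z w
  by_cases hw : w ∈ L.lattice
  · rw [latMap_add_mem z hw, latMap_of_mem hw, add_zero]
  by_cases hz : z ∈ L.lattice
  · rw [latMap_mem_add w hz, latMap_of_mem hz, zero_add]
  by_cases hzw : z + w ∈ L.lattice
  · have hwz : latMap L w = -latMap L z := by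
      have e : w = -z + (z + w) := by ring
      rw [e, latMap_add_mem _ hzw, latMap_neg]
    rw [latMap_of_mem hzw, hwz, add_neg_cancel]
  -- the main case
  set V : Set ℂ := {t | t ∉ L.lattice ∧ t + w ∉ L.lattice} with hV
  set D : ℂ → (latE L).toAffine.Point := fun t => latMap L (t + w) - latMap L t with hD
  have hloc : ∀ t ∈ V, ∀ᶠ s in 𝓝 t, D s = D t := by
    intro t ht
    have e1 := eventually_latMap_add h0 (L := L) (u := t + w) ht.2
    have e2 := eventually_latMap_add h0 (L := L) (u := t) ht.1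
    have e3 : ∀ᶠ ε in 𝓝[≠] (0 : ℂ), D (t + ε) = D t := by
      filter_upwards [e1, e2] with ε a b
      show latMap L (t + ε + w) - latMap L (t + ε) = latMap L (t + w) - latMap L t
      have e : t + ε + w = t + w + ε := by ring
      rw [e, a, b]
      abel
    rw [eventually_nhdsWithin_iff] at e3
    have e4 : ∀ᶠ ε in 𝓝 (0 : ℂ), D (t + ε) = D t := by
      filter_upwards [e3] with ε hε
      by_cases h : ε = 0
      · subst h
        rw [add_zero]
      · exact hε h
    have hc : Tendsto (fun s : ℂ => s - t) (𝓝 t) (𝓝 0) := by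
      have hcc : Continuous fun s : ℂ => s - t := by fun_prop
      have := hcc.tendsto t
      rwa [sub_self] at this
    have e5 := hc.eventually e4
    filter_upwards [e5] with s hs
    simpa using hs
  have hcount : ({t : ℂ | t ∈ L.lattice} ∪ {t : ℂ | t + w ∈ L.lattice}).Countable := by
    refine (countable_lattice L).union ?_
    have himg : {t : ℂ | t + w ∈ L.lattice} = (fun s : ℂ => s - w) '' (L.lattice : Set ℂ) := by
      ext t
      constructor
      · intro ht
        exact ⟨t + w, ht, by ring⟩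
      · rintro ⟨s, hs, rfl⟩
        show s - w + w ∈ L.lattice
        rwa [sub_add_cancel]
    rw [himg]
    exact (countable_lattice L).image _
  have hVeq : V = ({t : ℂ | t ∈ L.lattice} ∪ {t : ℂ | t + w ∈ L.lattice})ᶜ := by
    ext t
    simp only [hV, Set.mem_ofPred_eq, Set.mem_compl_iff, Set.mem_union, not_or]
  have hVpre : IsPreconnected V := by
    have h : 1 < Module.rank ℝ ℂ := by
      rw [Complex.rank_real_complex]
      norm_num
    rw [hVeq]
    exact (hcount.isPathConnected_compl_of_one_lt_rank h).isConnected.isPreconnected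
  let _ : TopologicalSpace (latE L).toAffine.Point := ⊥
  have : DiscreteTopology (latE L).toAffine.Point := ⟨rfl⟩
  have hcont : ContinuousOn D V := by
    intro t ht
    rw [ContinuousWithinAt, nhds_discrete, tendsto_pure]
    exact nhdsWithin_le_nhds (hloc t ht)
  obtain ⟨ε, hεV, hε⟩ : ∃ ε ∈ V, D ε = latMap L w := by
    have e1 := eventually_latMap_add h0 (L := L) (u := w) hw
    have e2 := eventually_notMem_lattice L
    have e3 : ∀ᶠ ε in 𝓝[≠] (0 : ℂ), ε + w ∉ L.lattice := by
      have := (tendsto_const_add_punctured w).eventually ((isOpen_compl_lattice L).mem_nhds hw)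
      filter_upwards [this] with ε h
      rw [add_comm]
      exact h
    obtain ⟨ε, a, b, c⟩ := (e1.and (e2.and e3)).exists
    refine ⟨ε, ⟨b, c⟩, ?_⟩
    show latMap L (ε + w) - latMap L ε = latMap L w
    rw [add_comm ε w, a]
    abel
  have hzV : z ∈ V := ⟨hz, hzw⟩
  have hconst := hVpre.constant hcont hzV hεV
  have hDz : latMap L (z + w) - latMap L z = latMap L w := hconst.trans hε
  rw [← hDz]
  abel

end Fermat.Agent.EMC
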