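import Mathlib
import Fermat.Agent.E.MC.Statements

set_option autoImplicit false

/-!
# Cluster E' (Mazur, S15), seat E-MC, leaf AN4b (helper18): the lattices of index `p` over `ℤ + ℤτ`

`latIndex (p) [Fact p.Prime] : LatIndexStatement p` : if `p c ∈ Λ_τ`, `c ∉ Λ_τ`, then `Λ_τ + ℤ c` is
the lattice of a period pair, homothetic to `Λ_τ'` with `τ' = p τ` or `p τ' = τ + a`.

Proof.  `p c = a + b τ`, and `p` does not divide both `a` and `b`.
* `p ∣ b` : `Λ_τ + ℤ c = ℤ (1/p) + ℤ τ = (1/p) (ℤ + ℤ pτ)`, `τ' = p τ`;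
* `p ∤ b` : with `b x + p y = 1`, `c' = x c + y τ = (τ + x a) / p`, `Λ_τ + ℤ c = ℤ + ℤ c'`,
  `τ' = c'`.
-/

noncomputable section

namespace Fermat.Agent.EMC

open UpperHalfPlane

/-- a period pair `(r, z)` with `r` real and nonzero, `z` not real. -/
def li_pair (r : ℝ) (hr : r ≠ 0) (z : ℂ) (hz : z.im ≠ 0) : PeriodPair where
  ω₁ := (r : ℂ)
  ω₂ := z
  indep := by
    rw [LinearIndependent.pair_iff]
    intro s t h
    have him := congrArg Complex.im h
    have hre := congrArg Complex.re h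
    simp at him hre
    have ht : t = 0 := by
      rcases him with h1 | h1
      · exact h1
      · exact absurd h1 hz
    subst ht
    simp at hre
    rcases hre with h1 | h1
    · exact ⟨h1, rfl⟩
    · exact absurd h1 hr

theorem li_mem_pair {r : ℝ} {hr : r ≠ 0} {z : ℂ} {hz : z.im ≠ 0} {x : ℂ} :
    x ∈ (li_pair r hr z hz).lattice ↔ ∃ m n : ℤ, (m : ℂ) * (r : ℂ) + n * z = x :=
  PeriodPair.mem_lattice

theorem li_mem_std {τ : ℍ} {x : ℂ} :
    x ∈ (stdPair τ).lattice ↔ ∃ m n : ℤ, (m : ℂ) + n * (τ : ℂ) = x := by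
  rw [PeriodPair.mem_lattice]
  constructor
  · rintro ⟨m, n, h⟩
    refine ⟨m, n, ?_⟩
    rw [← h]
    simp [stdPair]
  · rintro ⟨m, n, h⟩
    refine ⟨m, n, ?_⟩
    rw [← h]
    simp [stdPair]

/-- **AN4b**: the lattices of index `p` over `ℤ + ℤτ`. -/
theorem latIndex (p : ℕ) [hp : Fact p.Prime] : LatIndexStatement p := by
  intro τ c hc hpc
  have hp0 : (p : ℂ) ≠ 0 := by exact_mod_cast hp.out.ne_zero
  have hpR : (p : ℝ) ≠ 0 := by exact_mod_cast hp.out.ne_zero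
  have hppos : (0 : ℝ) < p := by exact_mod_cast hp.out.pos
  have hτim : ((τ : ℂ)).im ≠ 0 := ne_of_gt τ.im_pos
  obtain ⟨a, b, hab⟩ := li_mem_std.mp hpc
  have hc_eq : c = ((a : ℂ) + b * τ) / p := by
    rw [eq_div_iff hp0]
    linear_combination -hab
  have hpZ : Prime (p : ℤ) := Nat.prime_iff_prime_int.mp hp.out
  by_cases hb : (p : ℤ) ∣ b
  · -- `p ∣ b`: `τ' = p τ`
    obtain ⟨b', rfl⟩ := hb
    have ha : ¬ (p : ℤ) ∣ a := by
      rintro ⟨a', rfl⟩
      apply hc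
      rw [li_mem_std]
      refine ⟨a', b', ?_⟩
      rw [hc_eq]
      push_cast
      field_simp
    obtain ⟨x, y, hxy⟩ : IsCoprime (p : ℤ) a := (Prime.coprime_iff_not_dvd hpZ).mpr ha
    have hxyC : (x : ℂ) * p + y * a = 1 := by exact_mod_cast hxy
    have him : 0 < ((p : ℂ) * (τ : ℂ)).im := by
      rw [Complex.mul_im, Complex.natCast_re, Complex.natCast_im, zero_mul, add_zero]
      exact mul_pos hppos τ.im_pos
    refine ⟨li_pair (1 / (p : ℝ)) (one_div_ne_zero hpR) τ hτim, ⟨(p : ℂ) * τ, him⟩, 1 / (p : ℂ),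
      one_div_ne_zero hp0, ?_, ?_, Or.inl rfl⟩
    · intro z
      rw [li_mem_pair]
      constructor
      · rintro ⟨m, n, rfl⟩
        refine ⟨(m * x : ℤ) + (n - m * y * b' : ℤ) * (τ : ℂ), li_mem_std.mpr ⟨_, _, rfl⟩,
          m * y, ?_⟩
        rw [hc_eq]
        push_cast
        field_simp
        linear_combination (-(m : ℂ)) * hxyC
      · rintro ⟨w, hw, n, rfl⟩
        obtain ⟨m', n', rfl⟩ := li_mem_std.mp hw
        refine ⟨m' * p + n * a, n' + n * b', ?_⟩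
        rw [hc_eq]
        push_cast
        field_simp
        ring
    · intro z
      rw [li_mem_pair]
      constructor
      · rintro ⟨m, n, rfl⟩
        refine ⟨(m : ℂ) + n * ((p : ℂ) * τ), li_mem_std.mpr ⟨m, n, rfl⟩, ?_⟩
        push_cast
        field_simp
      · rintro ⟨w, hw, rfl⟩
        obtain ⟨m, n, rfl⟩ := li_mem_std.mp hw
        refine ⟨m, n, ?_⟩
        show (m : ℂ) * ((1 / (p : ℝ) : ℝ) : ℂ) + n * (τ : ℂ) = 1 / (p : ℂ) * ((m : ℂ) + n * ((p : ℂ) * τ))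
        push_cast
        field_simp
  · -- `p ∤ b`: `p τ' = τ + x a`
    obtain ⟨y, x, hxy⟩ : IsCoprime (p : ℤ) b := (Prime.coprime_iff_not_dvd hpZ).mpr hb
    have hxyC : (y : ℂ) * p + x * b = 1 := by exact_mod_cast hxy
    have him : 0 < (((τ : ℂ) + (x * a : ℤ)) / (p : ℂ)).im := by
      have e : ((τ : ℂ) + (x * a : ℤ)) / (p : ℂ) = ((1 / (p : ℝ) : ℝ) : ℂ) * ((τ : ℂ) + (x * a : ℤ)) := by
        push_cast
        field_simp
      rw [e, Complex.im_ofReal_mul, Complex.add_im, Complex.intCast_im, add_zero]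
      exact mul_pos (one_div_pos.mpr hppos) τ.im_pos
    refine ⟨stdPair ⟨((τ : ℂ) + (x * a : ℤ)) / (p : ℂ), him⟩, ⟨((τ : ℂ) + (x * a : ℤ)) / (p : ℂ), him⟩,
      1, one_ne_zero, ?_, ?_, Or.inr ⟨x * a, ?_⟩⟩
    · intro z
      rw [li_mem_std]
      constructor
      · rintro ⟨m, n, rfl⟩
        refine ⟨(m : ℤ) + (n * y : ℤ) * (τ : ℂ), li_mem_std.mpr ⟨_, _, rfl⟩, n * x, ?_⟩
        show (m : ℂ) + n * (((τ : ℂ) + (x * a : ℤ)) / (p : ℂ)) = _
        rw [hc_eq]
        push_cast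
        field_simp
        linear_combination (-(n : ℂ) * τ) * hxyC
      · rintro ⟨w, hw, n, rfl⟩
        obtain ⟨m', n', rfl⟩ := li_mem_std.mp hw
        refine ⟨m' - n' * (x * a) + n * (a * y), n' * p + n * b, ?_⟩
        show _ + _ * (((τ : ℂ) + (x * a : ℤ)) / (p : ℂ)) = _
        rw [hc_eq]
        push_cast
        field_simp
        linear_combination ((n : ℂ) * a) * hxyC
    · intro z
      constructor
      · intro hz
        exact ⟨z, hz, (one_mul z).symm⟩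
      · rintro ⟨w, hw, rfl⟩
        rwa [one_mul]
    · show (p : ℂ) * (((τ : ℂ) + (x * a : ℤ)) / (p : ℂ)) = (τ : ℂ) + ((x * a : ℤ) : ℂ)
      field_simp

end Fermat.Agent.EMC
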