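/-
Cluster E' (Mazur, S15), seat E-MC, leaf AN2 (helper47; sub-architect helper15):
**the lattice curve `E_Λ : y² = x³ - (g₂/4) x - g₃/4` and its `j`-invariant.**

* `latCurve : LatCurveStatement` (AN0): `Δ(E_Λ) = g₂³ - 27 g₃² ≠ 0` and `(℘, ℘'/2)` is a
  (nonsingular) point of `E_Λ`;
* `latJ : LatJStatement` (AN2a): `j(E_{ℤ + ℤτ}) = E₄(τ)³ / Δ(τ)`;
* `latHomothety : LatHomothetyStatement` (AN2b): homothetic lattices have the same `j`.

Proof.  `G_k(ℤ + ℤτ) = ∑_{ℤ²} (mτ + n)^{-k} = 2 ζ(k) E_k(τ)` (Mathlib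
`tsum_eisSummand_eq_riemannZeta_mul_eisensteinSeries`), `ζ(4) = π⁴/90`, `ζ(6) = π⁶/945`, hence
`g₂ = (4π⁴/3) E₄`, `g₃ = (8π⁶/27) E₆`, `g₂³ - 27 g₃² = (2π)¹² Δ(τ) ≠ 0`.  `G_k(cΛ) = c^{-k} G_k(Λ)`,
and every lattice is `ω₁ (ℤ + ℤτ)` with `τ = ± ω₂/ω₁ ∈ ℍ`.  The equation of the curve is the
differential equation of `℘` (Mathlib `derivWeierstrassP_sq`).
-/
import Mathlib
import Fermat.Agent.E.MC.Statements

set_option autoImplicit false

noncomputable section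

namespace Fermat.Agent.EMC

open UpperHalfPlane ModularForm EisensteinSeries Complex WeierstrassCurve
open scoped Real MatrixGroups

theorem lj_bernoulli'_five : bernoulli' 5 = 0 :=
  bernoulli'_eq_zero_of_odd (by decide) (by norm_num)

theorem lj_bernoulli'_six : bernoulli' 6 = 1 / 42 := by
  have h1 : Nat.choose 6 2 = 15 := by decide
  have h2 : Nat.choose 6 4 = 15 := by decide
  have h3 : Nat.choose 6 3 = 20 := by decide
  have h5 : Nat.choose 6 5 = 6 := by decide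
  rw [bernoulli'_def]
  simp only [Finset.sum_range_succ, Finset.sum_range_zero, lj_bernoulli'_five, bernoulli'_four,
    bernoulli'_three, bernoulli'_two, bernoulli'_one, bernoulli'_zero, h1, h2, h3, h5,
    Nat.choose_zero_right, Nat.choose_one_right]
  norm_num

theorem lj_riemannZeta_six : riemannZeta 6 = (π : ℂ) ^ 6 / 945 := by
  have h := riemannZeta_two_mul_nat (k := 3) (by norm_num)
  have hb : bernoulli 6 = 1 / 42 := by
    rw [bernoulli_eq_bernoulli'_of_ne_one (by norm_num), lj_bernoulli'_six]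
  rw [show ((2 : ℂ) * ((3 : ℕ) : ℂ)) = 6 by norm_num] at h
  rw [h]
  simp only [show 2 * 3 = 6 from rfl, hb]
  norm_num [Nat.factorial]
  ring

/-- the lattice sum of `ℤ + ℤτ` as a sum over `ℤ²`. -/
theorem lj_G_stdPair_eq_tsum (τ : ℍ) (k : ℕ) :
    (stdPair τ).G k = ∑' v : Fin 2 → ℤ, eisSummand k v τ := by
  rw [PeriodPair.G]
  rw [← ((stdPair τ).latticeEquivProd.symm.toEquiv).tsum_eq]
  rw [← ((finTwoArrowEquiv ℤ).trans (Equiv.prodComm ℤ ℤ)).tsum_eq]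
  refine tsum_congr fun v => ?_
  simp only [LinearEquiv.coe_toEquiv, Equiv.trans_apply, finTwoArrowEquiv_apply,
    Equiv.prodComm_apply]
  rw [PeriodPair.latticeEquiv_symm_apply, eisSummand]
  simp only [stdPair, mul_one, zpow_neg, zpow_natCast]
  rw [add_comm]
  rfl

theorem lj_G_stdPair (τ : ℍ) {k : ℕ} (hk : 3 ≤ k) :
    (stdPair τ).G k = 2 * riemannZeta k * E hk τ := by
  rw [lj_G_stdPair_eq_tsum, tsum_eisSummand_eq_riemannZeta_mul_eisensteinSeries hk,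
    show E hk τ = (1 / 2 : ℂ) • eisensteinSeriesSIF (N := 1) 0 k τ from rfl,
    eisensteinSeriesSIF_apply 0 k τ, smul_eq_mul]
  ring

theorem lj_Δ (L : PeriodPair) : (latE L).Δ = L.g₂ ^ 3 - 27 * L.g₃ ^ 2 := by
  simp only [latE, WeierstrassCurve.Δ, WeierstrassCurve.b₂, WeierstrassCurve.b₄,
    WeierstrassCurve.b₆, WeierstrassCurve.b₈]
  ring

theorem lj_c₄ (L : PeriodPair) : (latE L).c₄ = 12 * L.g₂ := by
  simp only [latE, WeierstrassCurve.c₄, WeierstrassCurve.b₂, WeierstrassCurve.b₄]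
  ring

theorem lj_jInv (L : PeriodPair) :
    jInv (latE L) = (12 * L.g₂) ^ 3 / (L.g₂ ^ 3 - 27 * L.g₃ ^ 2) := by
  rw [jInv, lj_Δ, lj_c₄]

/-- the lattice sums of homothetic lattices. -/
theorem lj_G_homothety (L L' : PeriodPair) (c : ℂ) (hc : c ≠ 0)
    (h : ∀ z : ℂ, z ∈ L'.lattice ↔ ∃ w ∈ L.lattice, z = c * w) (k : ℕ) :
    L'.G k = (c ^ k)⁻¹ * L.G k := by
  have hmem : ∀ l : L.lattice, c * (l : ℂ) ∈ L'.lattice := fun l => (h _).mpr ⟨l, l.2, rfl⟩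
  have hmem' : ∀ l' : L'.lattice, c⁻¹ * (l' : ℂ) ∈ L.lattice := by
    intro l'
    obtain ⟨w, hw, e⟩ := (h _).mp l'.2
    rw [e, ← mul_assoc, inv_mul_cancel₀ hc, one_mul]
    exact hw
  let e : L.lattice ≃ L'.lattice :=
    { toFun := fun l => ⟨c * l, hmem l⟩
      invFun := fun l' => ⟨c⁻¹ * l', hmem' l'⟩
      left_inv := fun l => Subtype.ext (by
        show c⁻¹ * (c * (l : ℂ)) = l
        rw [← mul_assoc, inv_mul_cancel₀ hc, one_mul])
      right_inv := fun l' => Subtype.ext (by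
        show c * (c⁻¹ * (l' : ℂ)) = l'
        rw [← mul_assoc, mul_inv_cancel₀ hc, one_mul]) }
  rw [PeriodPair.G, PeriodPair.G, ← e.tsum_eq, ← tsum_mul_left]
  refine tsum_congr fun l => ?_
  show ((c * (l : ℂ)) ^ k)⁻¹ = (c ^ k)⁻¹ * ((l : ℂ) ^ k)⁻¹
  rw [mul_pow, mul_inv]

theorem lj_g₂_homothety (L L' : PeriodPair) (c : ℂ) (hc : c ≠ 0)
    (h : ∀ z : ℂ, z ∈ L'.lattice ↔ ∃ w ∈ L.lattice, z = c * w) :
    L'.g₂ = (c ^ 4)⁻¹ * L.g₂ := by
  rw [PeriodPair.g₂, PeriodPair.g₂, lj_G_homothety L L' c hc h]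
  ring

theorem lj_g₃_homothety (L L' : PeriodPair) (c : ℂ) (hc : c ≠ 0)
    (h : ∀ z : ℂ, z ∈ L'.lattice ↔ ∃ w ∈ L.lattice, z = c * w) :
    L'.g₃ = (c ^ 6)⁻¹ * L.g₃ := by
  rw [PeriodPair.g₃, PeriodPair.g₃, lj_G_homothety L L' c hc h]
  ring

theorem lj_Δ_homothety (L L' : PeriodPair) (c : ℂ) (hc : c ≠ 0)
    (h : ∀ z : ℂ, z ∈ L'.lattice ↔ ∃ w ∈ L.lattice, z = c * w) :
    (latE L').Δ = (c ^ 12)⁻¹ * (latE L).Δ := by
  rw [lj_Δ, lj_Δ, lj_g₂_homothety L L' c hc h, lj_g₃_homothety L L' c hc h]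
  field_simp

/-- **AN2b**. -/
theorem latHomothety : LatHomothetyStatement := by
  intro L L' c hc h
  rw [lj_jInv, lj_jInv, lj_g₂_homothety L L' c hc h, lj_g₃_homothety L L' c hc h]
  have hc12 : c ^ 12 ≠ 0 := pow_ne_zero _ hc
  have e1 : (12 * ((c ^ 4)⁻¹ * L.g₂)) ^ 3 = (c ^ 12)⁻¹ * (12 * L.g₂) ^ 3 := by
    field_simp
  have e2 : ((c ^ 4)⁻¹ * L.g₂) ^ 3 - 27 * ((c ^ 6)⁻¹ * L.g₃) ^ 2 =
      (c ^ 12)⁻¹ * (L.g₂ ^ 3 - 27 * L.g₃ ^ 2) := by
    field_simp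
  rw [e1, e2, mul_div_mul_left _ _ (inv_ne_zero hc12)]

theorem lj_g₂_stdPair (τ : ℍ) : (stdPair τ).g₂ = 4 * (π : ℂ) ^ 4 / 3 * E₄ τ := by
  rw [PeriodPair.g₂, lj_G_stdPair τ (by norm_num : 3 ≤ 4)]
  rw [show ((4 : ℕ) : ℂ) = 4 by norm_num, riemannZeta_four]
  ring

theorem lj_g₃_stdPair (τ : ℍ) : (stdPair τ).g₃ = 8 * (π : ℂ) ^ 6 / 27 * E₆ τ := by
  rw [PeriodPair.g₃, lj_G_stdPair τ (by norm_num : 3 ≤ 6)]
  rw [show ((6 : ℕ) : ℂ) = 6 by norm_num, lj_riemannZeta_six]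
  ring

theorem lj_Δ_stdPair (τ : ℍ) :
    (latE (stdPair τ)).Δ = (2 * (π : ℂ)) ^ 12 * discriminant τ := by
  rw [lj_Δ, lj_g₂_stdPair, lj_g₃_stdPair, discriminant_eq_E₄_cube_sub_E₆_sq]
  ring

theorem lj_Δ_stdPair_ne_zero (τ : ℍ) : (latE (stdPair τ)).Δ ≠ 0 := by
  rw [lj_Δ_stdPair]
  refine mul_ne_zero (pow_ne_zero _ (mul_ne_zero two_ne_zero ?_)) (discriminant_ne_zero τ)
  exact_mod_cast Real.pi_ne_zero

/-- **AN2a**. -/
theorem latJ : LatJStatement := by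
  intro τ
  have hπ : (π : ℂ) ≠ 0 := by exact_mod_cast Real.pi_ne_zero
  have hΔ := discriminant_ne_zero τ
  have h1 := lj_Δ_stdPair τ
  rw [lj_Δ] at h1
  rw [lj_jInv, h1, lj_g₂_stdPair]
  field_simp
  ring

theorem lj_ω₁_ne_zero (L : PeriodPair) : L.ω₁ ≠ 0 := by
  have h := L.indep.ne_zero 0
  simpa using h

theorem lj_im_div_ne_zero (L : PeriodPair) : (L.ω₂ / L.ω₁).im ≠ 0 := by
  intro h0
  have hω := lj_ω₁_ne_zero L
  have h1 := LinearIndependent.pair_iff.mp L.indep (-(L.ω₂ / L.ω₁).re) 1 (by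
    have e : L.ω₂ = ((L.ω₂ / L.ω₁).re : ℂ) * L.ω₁ := by
      have h2 : L.ω₂ / L.ω₁ = ((L.ω₂ / L.ω₁).re : ℂ) := by
        apply Complex.ext
        · simp
        · simp [h0]
      rw [← h2, div_mul_cancel₀ _ hω]
    simp only [real_smul, ofReal_neg, ofReal_one, one_mul]
    nth_rewrite 2 [e]
    ring)
  exact one_ne_zero h1.2

/-- every lattice is homothetic to `ℤ + ℤτ`. -/
theorem lj_exists_stdPair (L : PeriodPair) :
    ∃ τ : ℍ, ∀ z : ℂ, z ∈ L.lattice ↔ ∃ w ∈ (stdPair τ).lattice, z = L.ω₁ * w := by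
  have hω := lj_ω₁_ne_zero L
  rcases lt_or_gt_of_ne (lj_im_div_ne_zero L) with h | h
  · -- `τ = -ω₂/ω₁`
    refine ⟨⟨-(L.ω₂ / L.ω₁), by simpa using h⟩, fun z => ?_⟩
    constructor
    · intro hz
      obtain ⟨m, n, e⟩ := PeriodPair.mem_lattice.mp hz
      refine ⟨(m : ℂ) + (-n : ℤ) * (-(L.ω₂ / L.ω₁)), ?_, ?_⟩
      · refine PeriodPair.mem_lattice.mpr ⟨m, -n, ?_⟩
        simp [stdPair]
      · rw [← e]
        push_cast
        field_simp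
    · rintro ⟨w, hw, rfl⟩
      obtain ⟨m, n, e⟩ := PeriodPair.mem_lattice.mp hw
      refine PeriodPair.mem_lattice.mpr ⟨m, -n, ?_⟩
      rw [← e]
      simp only [stdPair, mul_one]
      push_cast
      field_simp
  · -- `τ = ω₂/ω₁`
    refine ⟨⟨L.ω₂ / L.ω₁, h⟩, fun z => ?_⟩
    constructor
    · intro hz
      obtain ⟨m, n, e⟩ := PeriodPair.mem_lattice.mp hz
      refine ⟨(m : ℂ) + (n : ℤ) * (L.ω₂ / L.ω₁), ?_, ?_⟩
      · refine PeriodPair.mem_lattice.mpr ⟨m, n, ?_⟩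
        simp [stdPair]
      · rw [← e]
        field_simp
    · rintro ⟨w, hw, rfl⟩
      obtain ⟨m, n, e⟩ := PeriodPair.mem_lattice.mp hw
      refine PeriodPair.mem_lattice.mpr ⟨m, n, ?_⟩
      rw [← e]
      simp only [stdPair, mul_one]
      field_simp

theorem lj_Δ_ne_zero (L : PeriodPair) : (latE L).Δ ≠ 0 := by
  obtain ⟨τ, h⟩ := lj_exists_stdPair L
  have hω := lj_ω₁_ne_zero L
  rw [lj_Δ_homothety (stdPair τ) L L.ω₁ hω h]
  exact mul_ne_zero (inv_ne_zero (pow_ne_zero _ hω)) (lj_Δ_stdPair_ne_zero τ)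

theorem lj_equation (L : PeriodPair) (z : ℂ) (hz : z ∉ L.lattice) :
    (latE L).toAffine.Equation (L.weierstrassP z) (L.derivWeierstrassP z / 2) := by
  rw [WeierstrassCurve.Affine.equation_iff]
  have h := L.derivWeierstrassP_sq z hz
  simp only [latE]
  linear_combination (1 / 4 : ℂ) * h


/-- **AN0**. -/
theorem latCurve : LatCurveStatement := by
  intro L
  refine ⟨lj_Δ_ne_zero L, fun z hz => ?_⟩
  have h : (latE L).toAffine.Nonsingular (L.weierstrassP z) (L.derivWeierstrassP z / 2) :=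
    (WeierstrassCurve.Affine.equation_iff_nonsingular_of_Δ_ne_zero (lj_Δ_ne_zero L)).mp
      (lj_equation L z hz)
  refine ⟨h, ?_⟩
  rw [latMap, dif_pos ⟨hz, h⟩]

end Fermat.Agent.EMC
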