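/-
Cluster E' (S15), seat E-MC / AN3 (helper77), part 1: the lattice sums
`S₄(z) = Σ_{ω ∈ Λ} (ω - z)⁻⁴ = ℘(z)² - g₂/12`,
`S₆(z) = Σ_{ω ∈ Λ} (ω - z)⁻⁶ = ℘(z)³ - (3/20) g₂ ℘(z) - g₃/10`   (z ∉ Λ),
from the Taylor coefficients of `℘` at `z` (Mathlib) and `℘'' = 6 ℘² - g₂/2` (WPDeriv).
-/
import Fermat.Agent.E.MC.WPDeriv

set_option autoImplicit false

noncomputable section

namespace Fermat.Agent.EMC

open Filter Topology
open scoped PeriodPair Nat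

variable (L : PeriodPair)

/-- The iterated derivatives of `℘` off the lattice are the lattice sums. -/
theorem lv_iteratedDeriv_wp {z : ℂ} (hz : z ∉ L.lattice) {n : ℕ} (hn : n ≠ 0) :
    iteratedDeriv n ℘[L] z = ((n + 1).factorial : ℂ) * L.sumInvPow z (n + 2) := by
  have h := L.iteratedDeriv_weierstrassPExcept_self z (n := n)
  rw [L.weierstrassPExcept_of_notMem z hz, if_neg hn] at h
  exact h

/-- `℘''' = 12 ℘ ℘'` off the lattice. -/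
theorem lv_hasDerivAt_wp'' {z : ℂ} (hz : z ∉ L.lattice) :
    HasDerivAt (fun w => 6 * ℘[L] w ^ 2 - L.g₂ / 2) (12 * ℘[L] z * ℘'[L] z) z := by
  have h1 := ((hasDerivAt_wp L hz).fun_pow 2).const_mul (6 : ℂ)
  have h2 := h1.sub_const (L.g₂ / 2)
  have e : (6 : ℂ) * ((2 : ℕ) * ℘[L] z ^ (2 - 1) * ℘'[L] z) = 12 * ℘[L] z * ℘'[L] z := by
    norm_num
    ring
  rw [e] at h2
  exact h2

/-- `℘'''' = 120 ℘³ - 18 g₂ ℘ - 12 g₃` off the lattice. -/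
theorem lv_hasDerivAt_wp''' {z : ℂ} (hz : z ∉ L.lattice) :
    HasDerivAt (fun w => 12 * ℘[L] w * ℘'[L] w)
      (120 * ℘[L] z ^ 3 - 18 * L.g₂ * ℘[L] z - 12 * L.g₃) z := by
  have h1 := ((hasDerivAt_wp L hz).const_mul (12 : ℂ)).mul (hasDerivAt_wp' L hz)
  have h2 := L.derivWeierstrassP_sq z hz
  have e : (12 : ℂ) * ℘'[L] z * ℘'[L] z + 12 * ℘[L] z * (6 * ℘[L] z ^ 2 - L.g₂ / 2)
      = 120 * ℘[L] z ^ 3 - 18 * L.g₂ * ℘[L] z - 12 * L.g₃ := by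
    linear_combination (12 : ℂ) * h2
  rw [e] at h1
  exact h1

theorem lv_deriv_wp'_eventuallyEq {z : ℂ} (hz : z ∉ L.lattice) :
    deriv ℘'[L] =ᶠ[𝓝 z] fun w => 6 * ℘[L] w ^ 2 - L.g₂ / 2 := by
  filter_upwards [(isOpen_compl_lattice L).mem_nhds hz] with w hw
  exact (hasDerivAt_wp' L hw).deriv

theorem lv_deriv2_wp'_eventuallyEq {z : ℂ} (hz : z ∉ L.lattice) :
    deriv (deriv ℘'[L]) =ᶠ[𝓝 z] fun w => 12 * ℘[L] w * ℘'[L] w := by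
  filter_upwards [(isOpen_compl_lattice L).eventually_mem hz] with w hw
  rw [(lv_deriv_wp'_eventuallyEq L hw).deriv_eq]
  exact (lv_hasDerivAt_wp'' L hw).deriv

theorem lv_iteratedDeriv_two {z : ℂ} (hz : z ∉ L.lattice) :
    iteratedDeriv 2 ℘[L] z = 6 * ℘[L] z ^ 2 - L.g₂ / 2 := by
  rw [iteratedDeriv_succ', iteratedDeriv_one, L.deriv_weierstrassP]
  exact (hasDerivAt_wp' L hz).deriv

theorem lv_iteratedDeriv_four {z : ℂ} (hz : z ∉ L.lattice) :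
    iteratedDeriv 4 ℘[L] z = 120 * ℘[L] z ^ 3 - 18 * L.g₂ * ℘[L] z - 12 * L.g₃ := by
  rw [iteratedDeriv_succ', L.deriv_weierstrassP, iteratedDeriv_succ, iteratedDeriv_succ,
    iteratedDeriv_one]
  rw [(lv_deriv2_wp'_eventuallyEq L hz).deriv_eq]
  exact (lv_hasDerivAt_wp''' L hz).deriv

/-- `Σ_{ω ∈ Λ} (ω - z)⁻⁴ = ℘(z)² - g₂/12`. -/
theorem lv_sumInvPow_four {z : ℂ} (hz : z ∉ L.lattice) :
    L.sumInvPow z 4 = ℘[L] z ^ 2 - L.g₂ / 12 := by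
  have h1 := lv_iteratedDeriv_wp L hz (n := 2) (by norm_num)
  rw [lv_iteratedDeriv_two L hz] at h1
  norm_num [Nat.factorial] at h1
  linear_combination (-1 / 6 : ℂ) * h1

/-- `Σ_{ω ∈ Λ} (ω - z)⁻⁶ = ℘(z)³ - (3/20) g₂ ℘(z) - g₃/10`. -/
theorem lv_sumInvPow_six {z : ℂ} (hz : z ∉ L.lattice) :
    L.sumInvPow z 6 = ℘[L] z ^ 3 - 3 / 20 * L.g₂ * ℘[L] z - L.g₃ / 10 := by
  have h1 := lv_iteratedDeriv_wp L hz (n := 4) (by norm_num)
  rw [lv_iteratedDeriv_four L hz] at h1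
  norm_num [Nat.factorial] at h1
  linear_combination (-1 / 120 : ℂ) * h1

end Fermat.Agent.EMC
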