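/-
Cluster E' (S15), seat E-MC / AN3 (helper77): the lattice form of Vélu's formulas.
For lattices `Λ ⊆ Λ'` of finite index, Vélu's quotient of `E_Λ` by the image of `Λ'` is `E_Λ'`
(on the nose): `g₂(Λ') = g₂(Λ) + 10 Σ_c ℘''(c)`, `g₃(Λ') = g₃(Λ) + (7/6) Σ_c ℘''''(c)`.

`latVelu_of : LatCurveStatement → LatAddStatement → LatVeluStatement`
(AN0 gives that `latMap` is the affine point off the lattice, AN1 that it is injective mod `Λ`).
-/
import Fermat.Agent.E.MC.Statements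
import Fermat.Agent.E.MC.LatVeluSums

set_option autoImplicit false

noncomputable section

namespace Fermat.Agent.EMC

open WeierstrassCurve Filter Topology
open scoped PeriodPair

/-! ### Basic properties of `latMap` -/

theorem lv_latMap_of_mem (L : PeriodPair) {z : ℂ} (hz : z ∈ L.lattice) : latMap L z = 0 := by
  unfold latMap
  rw [dif_neg]
  exact fun h => h.1 hz

theorem lv_latMap_zero (L : PeriodPair) : latMap L 0 = 0 :=
  lv_latMap_of_mem L L.lattice.zero_mem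

theorem lv_latMap_eq_zero_iff (h0 : LatCurveStatement) (L : PeriodPair) {z : ℂ} :
    latMap L z = 0 ↔ z ∈ L.lattice := by
  refine ⟨fun h => ?_, lv_latMap_of_mem L⟩
  by_contra hz
  obtain ⟨hns, he⟩ := (h0 L).2 z hz
  rw [he] at h
  exact Affine.Point.some_ne_zero _ h

theorem lv_ptX_latMap (h0 : LatCurveStatement) (L : PeriodPair) {z : ℂ} (hz : z ∉ L.lattice) :
    EV.ptX (latMap L z) = ℘[L] z := by
  obtain ⟨hns, he⟩ := (h0 L).2 z hz
  rw [he]
  rfl

theorem lv_latMap_add_mem (L : PeriodPair) (z : ℂ) {l : ℂ} (hl : l ∈ L.lattice) :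
    latMap L (z + l) = latMap L z := by
  have e1 : ℘[L] (z + l) = ℘[L] z := L.weierstrassP_add_coe z ⟨l, hl⟩
  have e2 : ℘'[L] (z + l) = ℘'[L] z := L.derivWeierstrassP_add_coe z ⟨l, hl⟩
  have e3 : z + l ∉ L.lattice ↔ z ∉ L.lattice := by
    rw [not_iff_not]
    exact ⟨fun h => by simpa using L.lattice.sub_mem h hl, fun h => L.lattice.add_mem h hl⟩
  unfold latMap
  by_cases hz : z ∈ L.lattice
  · have hz' : z + l ∈ L.lattice := L.lattice.add_mem hz hl
    rw [dif_neg (fun h => h.1 hz'), dif_neg (fun h => h.1 hz)]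
  · have hz' : z + l ∉ L.lattice := e3.mpr hz
    by_cases hns : (latE L).toAffine.Nonsingular (℘[L] z) (℘'[L] z / 2)
    · have hns' : (latE L).toAffine.Nonsingular (℘[L] (z + l)) (℘'[L] (z + l) / 2) := by
        rw [e1, e2]
        exact hns
      rw [dif_pos ⟨hz', hns'⟩, dif_pos ⟨hz, hns⟩]
      simp only [Affine.Point.some.injEq]
      exact ⟨e1, by rw [e2]⟩
    · have hns' : ¬ (latE L).toAffine.Nonsingular (℘[L] (z + l)) (℘'[L] (z + l) / 2) := by
        rw [e1, e2]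
        exact hns
      rw [dif_neg (fun h => hns' h.2), dif_neg (fun h => hns h.2)]

theorem lv_latMap_eq_iff [DecidableEq ℂ] (h0 : LatCurveStatement) (h1 : LatAddStatement)
    (L : PeriodPair)
    {z w : ℂ} : latMap L z = latMap L w ↔ z - w ∈ L.lattice := by
  constructor
  · intro h
    have h2 := h1 L (z - w) w
    rw [sub_add_cancel, h] at h2
    have h3 : latMap L (z - w) = 0 := by
      have := h2.symm
      rwa [add_eq_right] at this
    exact (lv_latMap_eq_zero_iff h0 L).mp h3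
  · intro h
    have := lv_latMap_add_mem L w h
    rwa [add_sub_cancel] at this

/-! ### Finiteness of the image of `Λ'` -/

theorem lv_image_finite (L L' : PeriodPair)
    (hn : ∃ n : ℕ, 0 < n ∧ ∀ z ∈ L'.lattice, (n : ℂ) * z ∈ L.lattice) :
    (latMap L '' (L'.lattice : Set ℂ)).Finite := by
  obtain ⟨n, hn0, hn⟩ := hn
  have hfin : ((fun ab : ℕ × ℕ => latMap L ((ab.1 : ℂ) * L'.ω₁ + (ab.2 : ℂ) * L'.ω₂)) ''
      ((Finset.range n ×ˢ Finset.range n : Finset (ℕ × ℕ)) : Set (ℕ × ℕ))).Finite :=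
    (Finset.finite_toSet _).image _
  refine hfin.subset ?_
  rintro Q ⟨z, hz, rfl⟩
  obtain ⟨a, b, rfl⟩ := PeriodPair.mem_lattice.mp hz
  have hnZ : (0 : ℤ) < n := by exact_mod_cast hn0
  have hnZ' : (n : ℤ) ≠ 0 := hnZ.ne'
  refine ⟨((a % n).toNat, (b % n).toNat), ?_, ?_⟩
  · simp only [Finset.coe_product, Finset.coe_range, Set.mem_prod, Set.mem_Iio]
    constructor
    · have h1 := Int.emod_nonneg a hnZ'
      have h2 := Int.emod_lt_of_pos a hnZ
      omega
    · have h1 := Int.emod_nonneg b hnZ'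
      have h2 := Int.emod_lt_of_pos b hnZ
      omega
  · have ha : (((a % n).toNat : ℕ) : ℂ) = ((a % n : ℤ) : ℂ) := by
      have := Int.toNat_of_nonneg (Int.emod_nonneg a hnZ')
      exact_mod_cast congrArg (fun t : ℤ => (t : ℂ)) this
    have hb : (((b % n).toNat : ℕ) : ℂ) = ((b % n : ℤ) : ℂ) := by
      have := Int.toNat_of_nonneg (Int.emod_nonneg b hnZ')
      exact_mod_cast congrArg (fun t : ℤ => (t : ℂ)) this
    simp only [ha, hb]
    have hl : ((a / n : ℤ) : ℂ) * L'.ω₁ + ((b / n : ℤ) : ℂ) * L'.ω₂ ∈ L'.lattice :=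
      PeriodPair.mem_lattice.mpr ⟨a / n, b / n, rfl⟩
    have hl2 := hn _ hl
    have e : (a : ℂ) * L'.ω₁ + (b : ℂ) * L'.ω₂ =
        (((a % n : ℤ) : ℂ) * L'.ω₁ + ((b % n : ℤ) : ℂ) * L'.ω₂) +
          (n : ℂ) * (((a / n : ℤ) : ℂ) * L'.ω₁ + ((b / n : ℤ) : ℂ) * L'.ω₂) := by
      have e1 : (a : ℂ) = ((a % n : ℤ) : ℂ) + (n : ℂ) * ((a / n : ℤ) : ℂ) := by
        exact_mod_cast congrArg (fun t : ℤ => (t : ℂ)) (Int.emod_add_mul_ediv a n).symm
      have e2 : (b : ℂ) = ((b % n : ℤ) : ℂ) + (n : ℂ) * ((b / n : ℤ) : ℂ) := by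
        exact_mod_cast congrArg (fun t : ℤ => (t : ℂ)) (Int.emod_add_mul_ediv b n).symm
      linear_combination L'.ω₁ * e1 + L'.ω₂ * e2
    rw [e, lv_latMap_add_mem L _ hl2]

/-! ### The coset decomposition of the lattice sums -/

theorem lv_tsum_fibre_empty (L L' : PeriodPair) {k : ℕ} {Q : (latE L).toAffine.Point}
    (hQ : Q ∉ latMap L '' (L'.lattice : Set ℂ)) :
    ∑' c : {x : L'.lattice // latMap L (x : ℂ) = Q}, (((c.1 : L'.lattice) : ℂ) ^ k)⁻¹ = 0 := by
  have : IsEmpty {x : L'.lattice // latMap L (x : ℂ) = Q} := ⟨fun x => hQ ⟨x.1, x.1.2, x.2⟩⟩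
  exact tsum_empty

theorem lv_tsum_fibre_zero (h0 : LatCurveStatement) (L L' : PeriodPair)
    (hLL : L.lattice ≤ L'.lattice) {k : ℕ} :
    ∑' c : {x : L'.lattice // latMap L (x : ℂ) = 0}, (((c.1 : L'.lattice) : ℂ) ^ k)⁻¹
      = L.G k := by
  let e : L.lattice ≃ {x : L'.lattice // latMap L (x : ℂ) = 0} :=
    { toFun := fun l => ⟨⟨l.1, hLL l.2⟩, lv_latMap_of_mem L l.2⟩
      invFun := fun x => ⟨x.1.1, (lv_latMap_eq_zero_iff h0 L).mp x.2⟩
      left_inv := fun l => rfl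
      right_inv := fun x => rfl }
  rw [PeriodPair.G, ← e.tsum_eq]
  rfl

theorem lv_tsum_fibre [DecidableEq ℂ] (h0 : LatCurveStatement) (h1 : LatAddStatement)
    (L L' : PeriodPair) (hLL : L.lattice ≤ L'.lattice) {k : ℕ} {z₀ : ℂ}
    (hz₀ : z₀ ∈ L'.lattice) :
    ∑' c : {x : L'.lattice // latMap L (x : ℂ) = latMap L z₀}, (((c.1 : L'.lattice) : ℂ) ^ k)⁻¹
      = L.sumInvPow (-z₀) k := by
  let e : L.lattice ≃ {x : L'.lattice // latMap L (x : ℂ) = latMap L z₀} :=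
    { toFun := fun l => ⟨⟨z₀ + l.1, L'.lattice.add_mem hz₀ (hLL l.2)⟩,
        lv_latMap_add_mem L z₀ l.2⟩
      invFun := fun x => ⟨x.1.1 - z₀, (lv_latMap_eq_iff h0 h1 L).mp x.2⟩
      left_inv := fun l => by
        apply Subtype.ext
        simp
      right_inv := fun x => by
        apply Subtype.ext
        apply Subtype.ext
        simp }
  rw [PeriodPair.sumInvPow, ← e.tsum_eq]
  refine tsum_congr fun l => ?_
  show ((z₀ + (l : ℂ)) ^ k)⁻¹ = (((l : ℂ) - -z₀) ^ k)⁻¹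
  rw [sub_neg_eq_add, add_comm]

/-- The lattice sum of `Λ'` as the lattice sum of `Λ` plus a finite sum over the nonzero points
of the image of `Λ'` in `E_Λ`. -/
theorem lv_G_decomp [DecidableEq ℂ] (h0 : LatCurveStatement) (h1 : LatAddStatement)
    (L L' : PeriodPair) (hLL : L.lattice ≤ L'.lattice)
    (hfin : (latMap L '' (L'.lattice : Set ℂ)).Finite) {k : ℕ} (hk : 2 < k) (F : ℂ → ℂ)
    (hF : ∀ z ∉ L.lattice, L.sumInvPow z k = F (℘[L] z)) :
    L'.G k = L.G k +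
      ∑ᶠ (Q : (latE L).toAffine.Point) (_ : Q ∈ latMap L '' (L'.lattice : Set ℂ) ∧ Q ≠ 0),
        F (EV.ptX Q) := by
  set C : Set (latE L).toAffine.Point := latMap L '' (L'.lattice : Set ℂ) with hCdef
  set f : L'.lattice → ℂ := fun l => ((l : ℂ) ^ k)⁻¹ with hf
  have hfs : Summable f := by
    have := (L'.hasSum_sumInvPow 0 hk).summable
    simpa using this
  set T : (latE L).toAffine.Point → ℂ :=
    fun Q => ∑' c : {x : L'.lattice // latMap L (x : ℂ) = Q}, f c.1 with hT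
  have hsum : L'.G k = ∑' Q, T Q := by
    rw [PeriodPair.G, ← (Equiv.sigmaFiberEquiv (fun x : L'.lattice => latMap L (x : ℂ))).tsum_eq]
    exact Summable.tsum_sigma ((Equiv.summable_iff _).mpr hfs)
  have hT0 : T 0 = L.G k := lv_tsum_fibre_zero h0 L L' hLL
  have hTC : ∀ Q ∈ C, Q ≠ 0 → T Q = F (EV.ptX Q) := by
    rintro Q ⟨z₀, hz₀, rfl⟩ hne
    have hz₀L : z₀ ∉ L.lattice := fun h => hne (lv_latMap_of_mem L h)
    have hz₀L' : -z₀ ∉ L.lattice := fun h => hz₀L (by simpa using L.lattice.neg_mem h)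
    rw [hT]
    simp only [hf]
    rw [lv_tsum_fibre h0 h1 L L' hLL hz₀, hF _ hz₀L', L.weierstrassP_neg,
      lv_ptX_latMap h0 L hz₀L]
  have hTn : ∀ Q, Q ∉ C → T Q = 0 := fun Q hQ => lv_tsum_fibre_empty L L' hQ
  have hsupp : Function.support T ⊆ C := by
    intro Q hQ
    by_contra h
    exact hQ (hTn Q h)
  have h0C : (0 : (latE L).toAffine.Point) ∈ C := ⟨0, L'.lattice.zero_mem, lv_latMap_zero L⟩
  set C' : Set (latE L).toAffine.Point := {Q | Q ∈ C ∧ Q ≠ 0} with hC'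
  have hC : C = insert 0 C' := by
    ext Q
    simp only [hC', Set.mem_insert_iff, Set.mem_ofPred_eq]
    constructor
    · intro hQ
      by_cases hQ0 : Q = 0
      · exact Or.inl hQ0
      · exact Or.inr ⟨hQ, hQ0⟩
    · rintro (rfl | hQ)
      · exact h0C
      · exact hQ.1
  have hC'fin : C'.Finite := hfin.subset fun Q hQ => hQ.1
  have h0C' : (0 : (latE L).toAffine.Point) ∉ C' := fun h => h.2 rfl
  have e1 : ∑ᶠ Q ∈ C, T Q = T 0 + ∑ᶠ Q ∈ C', T Q := by
    conv_lhs => rw [hC]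
    exact finsum_mem_insert T h0C' hC'fin
  have e0 : ∑ᶠ Q, T Q = ∑ᶠ Q ∈ C, T Q := by
    rw [← finsum_mem_univ T]
    exact finsum_mem_inter_support_eq' T Set.univ C
      fun x hx => ⟨fun _ => hsupp hx, fun _ => trivial⟩
  rw [hsum, tsum_eq_finsum (hfin.subset hsupp), e0, e1, hT0]
  congr 1
  exact finsum_mem_congr rfl fun Q hQ => hTC Q hQ.1 hQ.2

/-! ### The main theorem -/

theorem lv_veluT (L : PeriodPair) (Q : (latE L).toAffine.Point) :
    EV.veluT (latE L).toAffine Q = 6 * (EV.ptX Q ^ 2 - L.g₂ / 12) := by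
  simp only [EV.veluT, latE, WeierstrassCurve.b₂, WeierstrassCurve.b₄]
  ring

theorem lv_veluW (L : PeriodPair) (Q : (latE L).toAffine.Point) :
    EV.veluU (latE L).toAffine Q + EV.ptX Q * EV.veluT (latE L).toAffine Q =
      10 * (EV.ptX Q ^ 3 - 3 / 20 * L.g₂ * EV.ptX Q - L.g₃ / 10) := by
  simp only [EV.veluT, EV.veluU, latE, WeierstrassCurve.b₂, WeierstrassCurve.b₄,
    WeierstrassCurve.b₆]
  ring

/-- **AN3** from AN0 and AN1. -/
theorem latVelu_of [DecidableEq ℂ] (h0 : LatCurveStatement) (h1 : LatAddStatement) :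
    LatVeluStatement := by
  intro L L' hLL hn
  have hfin := lv_image_finite L L' hn
  have h4 := lv_G_decomp h0 h1 L L' hLL hfin (k := 4) (by norm_num)
    (fun x => x ^ 2 - L.g₂ / 12) (fun z hz => lv_sumInvPow_four L hz)
  have h6 := lv_G_decomp h0 h1 L L' hLL hfin (k := 6) (by norm_num)
    (fun x => x ^ 3 - 3 / 20 * L.g₂ * x - L.g₃ / 10) (fun z hz => lv_sumInvPow_six L hz)
  have hT : EV.veluSumT (latE L).toAffine (latMap L '' (L'.lattice : Set ℂ))
      = 3 * (L'.G 4 - L.G 4) := by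
    unfold EV.veluSumT
    simp only [lv_veluT]
    rw [h4]
    have := mul_finsum_mem (s := {Q : (latE L).toAffine.Point |
      Q ∈ latMap L '' (L'.lattice : Set ℂ) ∧ Q ≠ 0})
      (f := fun Q => EV.ptX Q ^ 2 - L.g₂ / 12) (r := (6 : ℂ))
    simp only [Set.mem_ofPred_eq] at this
    rw [← this]
    ring
  have hW : EV.veluSumW (latE L).toAffine (latMap L '' (L'.lattice : Set ℂ))
      = 5 * (L'.G 6 - L.G 6) := by
    unfold EV.veluSumW
    simp only [lv_veluW]
    rw [h6]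
    have := mul_finsum_mem (s := {Q : (latE L).toAffine.Point |
      Q ∈ latMap L '' (L'.lattice : Set ℂ) ∧ Q ≠ 0})
      (f := fun Q => EV.ptX Q ^ 3 - 3 / 20 * L.g₂ * EV.ptX Q - L.g₃ / 10) (r := (10 : ℂ))
    simp only [Set.mem_ofPred_eq] at this
    rw [← this]
    ring
  unfold EV.veluCurve
  rw [hT, hW]
  simp only [latE, WeierstrassCurve.b₂, PeriodPair.g₂, PeriodPair.g₃]
  refine WeierstrassCurve.ext rfl rfl rfl ?_ ?_
  · show -(60 * L.G 4) / 4 - 5 * (3 * (L'.G 4 - L.G 4)) = -(60 * L'.G 4) / 4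
    ring
  · show -(140 * L.G 6) / 4 - ((0 : ℂ) ^ 2 + 4 * 0) * (3 * (L'.G 4 - L.G 4))
      - 7 * (5 * (L'.G 6 - L.G 6)) = -(140 * L'.G 6) / 4
    ring

end Fermat.Agent.EMC
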