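/-
Cluster E' (Mazur, S15), seat E-MC (sub-architect helper15): EXACT STATEMENTS, part 2
(the pieces of the assembly AN5 over `ℂ` and of the descent AN6).  See NOTES/blueprint-E-MC.md.
-/
import Fermat.Agent.E.MC.Statements

set_option autoImplicit false

noncomputable section

namespace Fermat.Agent.EMC

open WeierstrassCurve UpperHalfPlane

variable [DecidableEq ℂ]

/-- **AN5b** reduction to lattice curves: every elliptic curve over `ℂ` is isomorphic to some
`E_{ℤ + ℤτ}` (surjectivity of `j` + `IsomOfJ` + AN2a), and the `j`-invariant of the Vélu quotient is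
invariant under the isomorphism (VC, `Fermat.Agent.EVC`). -/
def ReduceStatement : Prop :=
  LatCurveStatement → LatJStatement →
    ∀ (W : WeierstrassCurve ℂ), W.Δ ≠ 0 →
      ∃ (τ : ℍ) (φ : W.toAffine.Point ≃+ (latE (stdPair τ)).toAffine.Point),
        jInv W = jInv (latE (stdPair τ)) ∧
        ∀ C : AddSubgroup W.toAffine.Point, (C : Set W.toAffine.Point).Finite →
          jInv (EV.veluCurve W.toAffine (C : Set W.toAffine.Point)) =
            jInv (EV.veluCurve (latE (stdPair τ)).toAffine
              (φ '' (C : Set W.toAffine.Point)))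

/-- **AN5c** the subgroups of prime order `p` of `E_Λ(ℂ)` are the images of the lattices
`Λ + ℤ c`, `p c ∈ Λ`, `c ∉ Λ`  (`#E[p] = p²`, AN0, AN1). -/
def LatSubStatement (p : ℕ) : Prop :=
  LatCurveStatement → LatAddStatement →
    ∀ (L : PeriodPair) (C : AddSubgroup (latE L).toAffine.Point), Nat.card C = p →
      ∃ c : ℂ, c ∉ L.lattice ∧ (p : ℂ) * c ∈ L.lattice ∧
        (C : Set (latE L).toAffine.Point) =
          latMap L '' {z : ℂ | ∃ w ∈ L.lattice, ∃ n : ℤ, z = w + (n : ℂ) * c}

/-- **AN6** descent from `ℂ` to `ℚ̄` (choose an embedding `ℚ̄ → ℂ`; Vélu's formulas, `j` and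
`eval2` commute with it). -/
def DescentStatement (p : ℕ) [NeZero p] : Prop :=
  ModEqComplexStatement p → ModEqStatement p

end Fermat.Agent.EMC
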