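/-
Cluster E' (S15), seat E-MC / AN5 (helper15): **the modular equation for the Vélu quotient over `ℂ`**
(assembly of AN0–AN4, AN5b, AN5c).
-/
import Fermat.Agent.E.MC.Statements2
import Fermat.Agent.E.MC.LatJ
import Fermat.Agent.E.MC.LatAdd
import Fermat.Agent.E.MC.LatVelu
import Fermat.Agent.E.MC.LatIndex
import Fermat.Agent.E.MC.AnModEq

set_option autoImplicit false
set_option linter.unusedSectionVars false

noncomputable section

namespace Fermat.Agent.EMC

open WeierstrassCurve UpperHalfPlane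

variable [DecidableEq ℂ]

/-- The modular equation for the lattice curves `E_{ℤ + ℤτ}` (from AN5c). -/
theorem modEq_lattice (p : ℕ) [hp : Fact p.Prime] (hsub : LatSubStatement p) (τ : ℍ)
    (C' : AddSubgroup (latE (stdPair τ)).toAffine.Point) (hC' : Nat.card C' = p)
    (P : Polynomial (Polynomial ℤ)) (hP : @IsJRel p ⟨hp.out.ne_zero⟩ P) :
    eval2 P (jInv (latE (stdPair τ)))
      (jInv (EV.veluCurve (latE (stdPair τ)).toAffine
        (C' : Set (latE (stdPair τ)).toAffine.Point))) = 0 := by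
  have : NeZero p := ⟨hp.out.ne_zero⟩
  have h0 : LatCurveStatement := latCurve
  have h1 : LatAddStatement := latAdd h0
  obtain ⟨c, hc1, hc2, hCeq⟩ := hsub h0 h1 (stdPair τ) C' hC'
  obtain ⟨L', τ', e, he, hL', hL'e, hτ'⟩ := latIndex p τ c hc1 hc2
  have hset : (L'.lattice : Set ℂ) =
      {z : ℂ | ∃ w ∈ (stdPair τ).lattice, ∃ n : ℤ, z = w + (n : ℂ) * c} := by
    ext z
    exact hL' z
  have hle : (stdPair τ).lattice ≤ L'.lattice := fun z hz => (hL' z).mpr ⟨z, hz, 0, by simp⟩
  have hfin : ∃ n : ℕ, 0 < n ∧ ∀ z ∈ L'.lattice, (n : ℂ) * z ∈ (stdPair τ).lattice := by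
    refine ⟨p, hp.out.pos, fun z hz => ?_⟩
    obtain ⟨w, hw, n, rfl⟩ := (hL' z).mp hz
    have e1 : (p : ℂ) * (w + (n : ℂ) * c) = p • w + n • ((p : ℂ) * c) := by
      simp only [nsmul_eq_mul, zsmul_eq_mul]
      ring
    rw [e1]
    exact (stdPair τ).lattice.add_mem ((stdPair τ).lattice.nsmul_mem hw p)
      ((stdPair τ).lattice.smul_mem n hc2)
  have hV := latVelu_of h0 h1 (stdPair τ) L' hle hfin
  rw [hCeq, ← hset, hV]
  have hh := latHomothety (stdPair τ') L' e he hL'e
  rw [hh, latJ τ, latJ τ']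
  exact anModEq p P hP τ τ' hτ'

/-- **AN5** from AN5b (`ReduceStatement`) and AN5c (`LatSubStatement p`). -/
theorem modEqComplex_of (p : ℕ) [hp : Fact p.Prime] (hred : ReduceStatement)
    (hsub : LatSubStatement p) :
    @ModEqComplexStatement _ p ⟨hp.out.ne_zero⟩ := by
  intro W hΔ C hC P hP
  obtain ⟨τ, φ, hj, hvel⟩ := hred latCurve latJ W hΔ
  have hCfin : (C : Set W.toAffine.Point).Finite := by
    have : Finite C := Nat.finite_of_card_ne_zero (by rw [hC]; exact hp.out.ne_zero)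
    exact Set.toFinite _
  rw [hj, hvel C hCfin]
  have hC' : Nat.card (C.map φ.toAddMonoidHom) = p := by
    rw [← hC]
    exact Nat.card_congr (C.equivMapOfInjective φ.toAddMonoidHom φ.injective).symm.toEquiv
  exact modEq_lattice p hsub τ (C.map φ.toAddMonoidHom) hC' P hP

end Fermat.Agent.EMC
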