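/-
Cluster E' (Mazur, S15), seat E-MC, leaf AN5c (helper13): the subgroups of prime order `p` of
`E_Λ(ℂ)` are the images of the lattices `Λ + ℤ c`, `p c ∈ Λ`, `c ∉ Λ`.

`latMap` is a homomorphism with kernel `Λ` (AN0, AN1); the `p²` points
`latMap ((a ω₁ + b ω₂) / p)`, `0 ≤ a, b < p`, are distinct and killed by `p`; `#E[p] = p²`
(`Fermat.Agent.Torsion.card_torsionBy`), so they are all of `E[p]`.  A subgroup `C` of order `p` is
generated by some `Q ≠ 0`, `p Q = 0`, `Q = latMap c`.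
-/
import Mathlib
import Fermat.Agent.E.MC.Statements2
import Fermat.Agent.E.MC.LatVelu
import Fermat.Agent.Lib.Torsion.Card

set_option autoImplicit false
set_option linter.unusedSectionVars false
set_option linter.style.haveILetI false

noncomputable section

namespace Fermat.Agent.EMC

open WeierstrassCurve

variable [DecidableEq ℂ]

/-- `latMap` as an additive homomorphism. -/
def lsHom (h1 : LatAddStatement) (L : PeriodPair) : ℂ →+ (latE L).toAffine.Point where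
  toFun := latMap L
  map_zero' := lv_latMap_zero L
  map_add' := h1 L

theorem lsHom_apply (h1 : LatAddStatement) (L : PeriodPair) (z : ℂ) :
    lsHom h1 L z = latMap L z := rfl

theorem ls_latMap_zsmul (h1 : LatAddStatement) (L : PeriodPair) (n : ℤ) (z : ℂ) :
    latMap L ((n : ℂ) * z) = n • latMap L z := by
  rw [← lsHom_apply h1, ← lsHom_apply h1, ← map_zsmul, zsmul_eq_mul]

/-- The `p`-division points `(a ω₁ + b ω₂) / p`. -/
def lsPt (L : PeriodPair) (p : ℕ) (ab : Fin p × Fin p) : ℂ :=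
  (((ab.1 : ℕ) : ℂ) * L.ω₁ + ((ab.2 : ℕ) : ℂ) * L.ω₂) / (p : ℂ)

theorem ls_mul_lsPt (L : PeriodPair) (p : ℕ) (hp : p ≠ 0) (ab : Fin p × Fin p) :
    (p : ℂ) * lsPt L p ab = ((ab.1 : ℕ) : ℂ) * L.ω₁ + ((ab.2 : ℕ) : ℂ) * L.ω₂ := by
  unfold lsPt
  have : (p : ℂ) ≠ 0 := Nat.cast_ne_zero.2 hp
  field_simp

theorem ls_mul_lsPt_mem (L : PeriodPair) (p : ℕ) (hp : p ≠ 0) (ab : Fin p × Fin p) :
    (p : ℂ) * lsPt L p ab ∈ L.lattice := by
  rw [ls_mul_lsPt L p hp, PeriodPair.mem_lattice]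
  exact ⟨((ab.1 : ℕ) : ℤ), ((ab.2 : ℕ) : ℤ), by push_cast; rfl⟩

/-- integer combinations of the periods vanish only trivially -/
theorem ls_indep (L : PeriodPair) {s t : ℤ} (h : (s : ℂ) * L.ω₁ + (t : ℂ) * L.ω₂ = 0) :
    s = 0 ∧ t = 0 := by
  have hind := LinearIndependent.pair_iff.1 L.indep (s : ℝ) (t : ℝ)
  have h' : ((s : ℝ)) • L.ω₁ + ((t : ℝ)) • L.ω₂ = 0 := by
    rw [Complex.real_smul, Complex.real_smul]
    push_cast
    exact h
  obtain ⟨hs, ht⟩ := hind h'
  exact ⟨by exact_mod_cast hs, by exact_mod_cast ht⟩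

theorem ls_fin_eq_of_dvd {p : ℕ} (a a' : Fin p) (m : ℤ)
    (h : (p : ℤ) * m = ((a : ℕ) : ℤ) - ((a' : ℕ) : ℤ)) : a = a' := by
  have ha := a.2
  have ha' := a'.2
  have hm : m = 0 := by
    by_contra hm
    have hp0 : (0 : ℤ) < p := by
      have : 0 < p := lt_of_le_of_lt (Nat.zero_le _) ha
      exact_mod_cast this
    rcases lt_or_gt_of_ne hm with h1 | h1
    · have : (p : ℤ) * m ≤ (p : ℤ) * (-1) := mul_le_mul_of_nonneg_left (by omega) hp0.le
      omega
    · have : (p : ℤ) * 1 ≤ (p : ℤ) * m := mul_le_mul_of_nonneg_left (by omega) hp0.le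
      omega
  rw [hm, mul_zero] at h
  apply Fin.ext
  omega

theorem ls_lsPt_injective (h0 : LatCurveStatement) (h1 : LatAddStatement) (L : PeriodPair)
    (p : ℕ) (hp : p ≠ 0) :
    Function.Injective (fun ab : Fin p × Fin p => latMap L (lsPt L p ab)) := by
  intro ab ab' h
  have h2 : lsPt L p ab - lsPt L p ab' ∈ L.lattice := (lv_latMap_eq_iff h0 h1 L).1 h
  rw [PeriodPair.mem_lattice] at h2
  obtain ⟨m, n, hmn⟩ := h2
  have hpc : (p : ℂ) ≠ 0 := Nat.cast_ne_zero.2 hp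
  have e : (((p : ℤ) * m - (((ab.1 : ℕ) : ℤ) - ((ab'.1 : ℕ) : ℤ)) : ℤ) : ℂ) * L.ω₁
      + (((p : ℤ) * n - (((ab.2 : ℕ) : ℤ) - ((ab'.2 : ℕ) : ℤ)) : ℤ) : ℂ) * L.ω₂ = 0 := by
    have e1 := ls_mul_lsPt L p hp ab
    have e2 := ls_mul_lsPt L p hp ab'
    have e3 : (p : ℂ) * ((m : ℂ) * L.ω₁ + (n : ℂ) * L.ω₂)
        = (p : ℂ) * lsPt L p ab - (p : ℂ) * lsPt L p ab' := by
      rw [hmn]
      ring
    rw [e1, e2] at e3
    push_cast
    linear_combination e3
  obtain ⟨hs, ht⟩ := ls_indep L e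
  have ha : ab.1 = ab'.1 := ls_fin_eq_of_dvd ab.1 ab'.1 m (by omega)
  have hb : ab.2 = ab'.2 := ls_fin_eq_of_dvd ab.2 ab'.2 n (by omega)
  exact Prod.ext ha hb

/-- every point killed by `p` is the image of a `p`-division point of `Λ` -/
theorem ls_exists_lsPt (h0 : LatCurveStatement) (h1 : LatAddStatement) (L : PeriodPair)
    (p : ℕ) (hp : p ≠ 0) (Q : (latE L).toAffine.Point) (hQ : (p : ℤ) • Q = 0) :
    ∃ ab : Fin p × Fin p, latMap L (lsPt L p ab) = Q := by
  have hΔ : (latE L).toAffine.Δ ≠ 0 := (h0 L).1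
  have hp1 : 1 ≤ p := Nat.one_le_iff_ne_zero.2 hp
  haveI : Finite (Submodule.torsionBy ℤ (latE L).toAffine.Point (p : ℤ)) :=
    Fermat.Agent.Torsion.finite_torsionBy hΔ hp1
  have hcard := Fermat.Agent.Torsion.card_torsionBy hΔ hp1
  have hmem : ∀ ab : Fin p × Fin p,
      latMap L (lsPt L p ab) ∈ Submodule.torsionBy ℤ (latE L).toAffine.Point (p : ℤ) := by
    intro ab
    rw [Submodule.mem_torsionBy_iff, ← ls_latMap_zsmul h1]
    push_cast
    exact lv_latMap_of_mem L (ls_mul_lsPt_mem L p hp ab)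
  have hbij : Function.Bijective (fun ab : Fin p × Fin p =>
      (⟨latMap L (lsPt L p ab), hmem ab⟩ :
        Submodule.torsionBy ℤ (latE L).toAffine.Point (p : ℤ))) := by
    refine Function.Injective.bijective_of_nat_card_le ?_ ?_
    · intro ab ab' h
      exact ls_lsPt_injective h0 h1 L p hp (congrArg Subtype.val h)
    · rw [hcard, Nat.card_prod, Nat.card_fin, sq]
  obtain ⟨ab, hab⟩ := hbij.2 ⟨Q, (Submodule.mem_torsionBy_iff _ _).2 hQ⟩
  exact ⟨ab, congrArg Subtype.val hab⟩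

/-- **AN5c**. -/
theorem latSub (p : ℕ) [hp : Fact p.Prime] : LatSubStatement p := by
  intro h0 h1 L C hC
  have hp0 : p ≠ 0 := hp.out.ne_zero
  haveI : Finite C := Nat.finite_of_card_ne_zero (by rw [hC]; exact hp0)
  obtain ⟨g, hg⟩ := (isAddCyclic_of_prime_card hC).exists_generator
  -- `p g = 0`
  have hpg : (p : ℤ) • (g : (latE L).toAffine.Point) = 0 := by
    have h := card_nsmul_eq_zero' (G := C) (x := g)
    rw [hC] at h
    have h' := congrArg (Subtype.val : C → (latE L).toAffine.Point) h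
    rw [natCast_zsmul]
    simpa using h'
  -- `g ≠ 0`
  have hg0 : (g : (latE L).toAffine.Point) ≠ 0 := by
    intro h
    have hg' : g = 0 := Subtype.ext h
    have hsub : Subsingleton C := by
      refine ⟨fun x y => ?_⟩
      obtain ⟨n, hn⟩ := AddSubgroup.mem_zmultiples_iff.1 (hg x)
      obtain ⟨m, hm⟩ := AddSubgroup.mem_zmultiples_iff.1 (hg y)
      rw [← hn, ← hm, hg', smul_zero, smul_zero]
    have : Nat.card C = 1 := Nat.card_unique
    rw [hC] at this
    exact hp.out.one_lt.ne' this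
  obtain ⟨ab, hab⟩ := ls_exists_lsPt h0 h1 L p hp0 g hpg
  refine ⟨lsPt L p ab, ?_, ls_mul_lsPt_mem L p hp0 ab, ?_⟩
  · intro hmem
    rw [lv_latMap_of_mem L hmem] at hab
    exact hg0 hab.symm
  · ext x
    constructor
    · intro hx
      obtain ⟨n, hn⟩ := AddSubgroup.mem_zmultiples_iff.1 (hg ⟨x, hx⟩)
      have hn' : n • (g : (latE L).toAffine.Point) = x := by
        have := congrArg (Subtype.val : C → (latE L).toAffine.Point) hn
        simpa using this
      refine ⟨(n : ℂ) * lsPt L p ab, ⟨0, L.lattice.zero_mem, n, by rw [zero_add]⟩, ?_⟩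
      rw [ls_latMap_zsmul h1, hab, hn']
    · rintro ⟨z, ⟨w, hw, n, rfl⟩, rfl⟩
      rw [h1 L, lv_latMap_of_mem L hw, zero_add, ls_latMap_zsmul h1, hab]
      exact C.zsmul_mem g.2 n

end Fermat.Agent.EMC
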