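/-
Cluster E' (S15), seat E-MC / AN5b (helper77): reduction to lattice curves.
Every elliptic curve `W` over `ℂ` is a change of variables of some `E_{ℤ + ℤτ}` (`j` is surjective,
Mathlib's `exists_variableChange_of_j_eq`), and the `j`-invariant of the Vélu quotient is invariant
under the induced isomorphism of the groups of points (`Fermat.Agent.EVC`).
-/
import Mathlib
import Fermat.Agent.E.MC.Statements2
import Fermat.Agent.E.S12.VeluVC
import Fermat.Agent.S24.JLocal

set_option autoImplicit false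

noncomputable section

namespace Fermat.Agent.EMC

open WeierstrassCurve UpperHalfPlane

/-- `jInv` is the `j`-invariant of an elliptic curve. -/
theorem rd_jInv_eq_j {k : Type*} [Field k] (W : WeierstrassCurve k) [W.IsElliptic] :
    jInv W = W.j := by
  unfold jInv
  rw [WeierstrassCurve.j, div_eq_mul_inv, mul_comm, Units.val_inv_eq_inv_val, W.coe_Δ']

/-- `c₄³ / Δ` is invariant under changes of variables (also when `Δ = 0`). -/
theorem rd_jInv_eq_of_scaling {k : Type*} [Field k] {V V' : WeierstrassCurve k} {u : k}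
    (hu : u ≠ 0) (h4 : V.c₄ = u ^ 4 * V'.c₄) (hD : V.Δ = u ^ 12 * V'.Δ) :
    jInv V = jInv V' := by
  unfold jInv
  rw [h4, hD]
  by_cases hz : V'.Δ = 0
  · rw [hz, mul_zero, div_zero, div_zero]
  · field_simp

variable [DecidableEq ℂ]

/-- **AN5b**. -/
theorem reduce : ReduceStatement := by
  intro h0 hJ W hΔ
  obtain ⟨τ, hτ⟩ := Fermat.Agent.S24.JLocal.jFun_surjective (jInv W)
  have hΔ' : (latE (stdPair τ)).Δ ≠ 0 := (h0 _).1
  have hj : jInv (latE (stdPair τ)) = jInv W := by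
    rw [hJ τ]
    exact hτ
  have : W.IsElliptic := ⟨isUnit_iff_ne_zero.mpr hΔ⟩
  have : (latE (stdPair τ)).IsElliptic := ⟨isUnit_iff_ne_zero.mpr hΔ'⟩
  obtain ⟨𝒞, h𝒞⟩ := exists_variableChange_of_j_eq W (latE (stdPair τ))
    (by rw [← rd_jInv_eq_j, ← rd_jInv_eq_j, hj])
  have h : (latE (stdPair τ)).toAffine = 𝒞 • W.toAffine := h𝒞.symm
  refine ⟨τ, (EVC.vcEquiv 𝒞 h).symm, hj.symm, ?_⟩
  intro C hC
  have himg : (EVC.vcEquiv 𝒞 h).symm '' (C : Set W.toAffine.Point) =
      (VarChange.vcHom 𝒞 h) ⁻¹' (C : Set W.toAffine.Point) := by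
    ext Q
    constructor
    · rintro ⟨P, hP, rfl⟩
      show VarChange.vcHom 𝒞 h ((EVC.vcEquiv 𝒞 h).symm P) ∈ (C : Set W.toAffine.Point)
      rw [← EVC.vcEquiv_apply, AddEquiv.apply_symm_apply]
      exact hP
    · intro hQ
      refine ⟨VarChange.vcHom 𝒞 h Q, hQ, ?_⟩
      rw [← EVC.vcEquiv_apply, AddEquiv.symm_apply_apply]
  rw [himg]
  exact rd_jInv_eq_of_scaling 𝒞.u.ne_zero (EVC.veluCurve_c₄_vc 𝒞 h _ hC)
    (EVC.veluCurve_Δ_vc 𝒞 h _ hC)

end Fermat.Agent.EMC
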