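/-
Cluster E' (S15), seat E-MC (helper15): **(MP1) the modular equation for the Vélu quotient**, over `ℂ`
and over `ℚ̄`:  for every prime `p`, every elliptic curve `E`, every subgroup `C` of order `p` and
every integer relation `P(j(q), j(q^p)) = 0`:   `P(j(E), j(E/C)) = 0`.

Assembly of AN0/AN2 (`latCurve`, `latJ`, `latHomothety`: helper47), AN1 (`latAdd`: helper15),
AN3 (`latVelu_of`: helper77), AN4a (`anModEq`: helper47), AN4b (`latIndex`: helper18),
AN5b (`reduce`: helper77), AN5c (`latSub`: helper13), AN6 (`descent`: helper64).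
-/
import Fermat.Agent.E.MC.Complex
import Fermat.Agent.E.MC.Reduce
import Fermat.Agent.E.MC.LatSub
import Fermat.Agent.E.MC.Descent

set_option autoImplicit false

noncomputable section

namespace Fermat.Agent.EMC

open WeierstrassCurve

/-- **AN5** the modular equation for the Vélu quotient over `ℂ`. -/
theorem modEqComplex [DecidableEq ℂ] (p : ℕ) [hp : Fact p.Prime] :
    @ModEqComplexStatement _ p ⟨hp.out.ne_zero⟩ :=
  modEqComplex_of p reduce (latSub p)

/-- **(MP1)** the modular equation for the Vélu quotient over `ℚ̄`. -/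
theorem modEq (p : ℕ) [hp : Fact p.Prime] : @ModEqStatement p ⟨hp.out.ne_zero⟩ := by
  classical
  exact @descent p ⟨hp.out.ne_zero⟩ _ (modEqComplex p)

end Fermat.Agent.EMC
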