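import Mathlib
import Fermat.Agent.E.MC.Defs
import Fermat.Agent.S17.H.Closed
import Fermat.Agent.S17.H.ClosedDVR
import Fermat.Agent.Lib.RR.OfModularBar

set_option autoImplicit false
set_option linter.unusedSectionVars false
set_option linter.style.longLine false

/-!
# Cluster E' (S15), seat E-MC, leaf MP2: the place of `X₀(p)` over a point of the plane model

If `a, b ∈ ℚ̄` satisfy `P(a, b) = 0` for every relation `P ∈ ℤ[X][Y]` between `j(q)` and `j(q^p)`,
then there is a place `x` of the function field of `X₀(p)` over `ℚ̄` at which `j` and `j_p` are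
regular with values `j(x) = a` and `j_p(x) = b` (`exists_place_of_isJRel`).

Proof: the relations between `1, j, j_p` over `ℚ̄` are `ℚ̄`-linear combinations of relations over
`ℤ` (`mp2_descent`: the `q`-expansions are rational), and the image of the curve under
`(1 : j : j_p)` is Zariski closed (`S17.Closed.closed_image_of_placesExhaust`).
-/

noncomputable section

open AlgebraicCurve ModularCurve

namespace Fermat.Agent.EMC

/-! ### descent of linear relations -/

section descent

variable {L : Type*} [Field L] [Algebra ℚ L]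

theorem mp2_coeff_algebraMap_mul (c : L) (x : LaurentSeries L) (n : ℤ) :
    (algebraMap L (LaurentSeries L) c * x).coeff n = c * x.coeff n := by
  rw [algebraMap_laurentSeries_eq_single]
  simp

/-- clearing the denominators of finitely many rational numbers -/
theorem mp2_exists_int_mul {ι : Type*} (T : Finset ι) (r : ι → ℚ) :
    ∃ (N : ℤ) (c : ι → ℤ), N ≠ 0 ∧ ∀ m ∈ T, (N : ℚ) * r m = (c m : ℚ) := by
  classical
  obtain ⟨b, hb⟩ := IsLocalization.exist_integer_multiples_of_finset (nonZeroDivisors ℤ)
    (S := ℚ) (T.image r)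
  have hc : ∀ m : ι, ∃ z : ℤ, m ∈ T → (z : ℚ) = ((b : ℤ) : ℚ) * r m := by
    intro m
    by_cases hm : m ∈ T
    · obtain ⟨z, hz⟩ := hb (r m) (Finset.mem_image_of_mem r hm)
      refine ⟨z, fun _ => ?_⟩
      rw [zsmul_eq_mul] at hz
      simpa using hz
    · exact ⟨0, fun h => absurd h hm⟩
  choose c hc using hc
  exact ⟨b, c, nonZeroDivisors.coe_ne_zero b, fun m hm => (hc m hm).symm⟩

/-- **Descent of linear relations**: a linear relation with coefficients in `L` between power
series with rational coefficients is a combination of relations with integer coefficients. -/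
theorem mp2_descent {ι : Type*} (T : Finset ι) (g : ι → L) (t : ι → LaurentSeries ℚ)
    (w : ι → L)
    (H1 : ∑ m ∈ T, algebraMap L (LaurentSeries L) (g m) * coeffEmb L (t m) = 0)
    (H2 : ∀ c : ι → ℤ, ∑ m ∈ T, (c m : ℚ) • t m = 0 → ∑ m ∈ T, (c m : L) * w m = 0) :
    ∑ m ∈ T, g m * w m = 0 := by
  classical
  -- Step A: the relation, coefficient by coefficient
  have hA : ∀ n : ℤ, ∑ m ∈ T, g m * algebraMap ℚ L ((t m).coeff n) = 0 := by
    intro n
    have h1 := congrArg (fun x : LaurentSeries L => x.coeff n) H1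
    simp only [HahnSeries.coeff_zero] at h1
    rw [← h1, HahnSeries.coeff_sum]
    refine Finset.sum_congr rfl fun m _ => ?_
    rw [mp2_coeff_algebraMap_mul, coeffEmb_coeff]
  -- Step B: the span of the coefficients
  set V : Submodule ℚ L := Submodule.span ℚ (g '' (T : Set ι)) with hV
  have hfin : Module.Finite ℚ V :=
    Module.Finite.span_of_finite ℚ ((T.finite_toSet).image g)
  set b := Module.finBasis ℚ V with hb
  set gV : ι → V := fun m => if h : m ∈ T then
    ⟨g m, Submodule.subset_span ⟨m, Finset.mem_coe.mpr h, rfl⟩⟩ else 0 with hgV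
  have hgVcoe : ∀ m ∈ T, ((gV m : V) : L) = g m := by
    intro m hm
    simp only [hgV, dif_pos hm]
  -- Step C: the rational relations
  have hC : ∀ (i : Fin (Module.finrank ℚ V)) (n : ℤ),
      ∑ m ∈ T, b.repr (gV m) i * (t m).coeff n = 0 := by
    intro i n
    have h1 : ∑ m ∈ T, ((t m).coeff n) • gV m = 0 := by
      apply Subtype.ext
      rw [Submodule.coe_sum, Submodule.coe_zero, ← hA n]
      refine Finset.sum_congr rfl fun m hm => ?_
      rw [Submodule.coe_smul, hgVcoe m hm, Algebra.smul_def, mul_comm]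
    have h2 := congrArg (fun x => b.repr x i) h1
    simp only [map_sum, map_smul, Finsupp.coe_finsetSum, Finset.sum_apply, Finsupp.smul_apply,
      map_zero, Finsupp.zero_apply, smul_eq_mul] at h2
    rw [← h2]
    exact Finset.sum_congr rfl fun m _ => mul_comm _ _
  -- Step D: the integral relations
  have hD : ∀ i : Fin (Module.finrank ℚ V),
      ∑ m ∈ T, algebraMap ℚ L (b.repr (gV m) i) * w m = 0 := by
    intro i
    obtain ⟨N, c, hN, hc⟩ := mp2_exists_int_mul T fun m => b.repr (gV m) i
    have h1 : ∑ m ∈ T, (c m : ℚ) • t m = 0 := by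
      ext n
      rw [HahnSeries.coeff_sum, HahnSeries.coeff_zero]
      have h2 : ∀ m ∈ T, ((c m : ℚ) • t m).coeff n =
          (N : ℚ) * (b.repr (gV m) i * (t m).coeff n) := by
        intro m hm
        rw [HahnSeries.coeff_smul, smul_eq_mul, ← hc m hm, mul_assoc]
      rw [Finset.sum_congr rfl h2, ← Finset.mul_sum, hC i n, mul_zero]
    have h3 := H2 c h1
    have h4 : ∀ m ∈ T, (c m : L) * w m =
        algebraMap ℚ L (N : ℚ) * (algebraMap ℚ L (b.repr (gV m) i) * w m) := by
      intro m hm
      rw [← mul_assoc, ← map_mul, hc m hm]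
      simp
    rw [Finset.sum_congr rfl h4, ← Finset.mul_sum] at h3
    have hNL : algebraMap ℚ L (N : ℚ) ≠ 0 := by
      rw [Ne, map_eq_zero]
      exact_mod_cast hN
    exact (mul_eq_zero.mp h3).resolve_left hNL
  -- Step E: assembling
  have hE : ∀ m ∈ T, g m * w m =
      ∑ i, ((b i : V) : L) * (algebraMap ℚ L (b.repr (gV m) i) * w m) := by
    intro m hm
    have h1 := congrArg (fun x : V => (x : L)) (b.sum_repr (gV m))
    simp only [Submodule.coe_sum, Submodule.coe_smul] at h1
    rw [hgVcoe m hm] at h1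
    rw [← h1, Finset.sum_mul]
    refine Finset.sum_congr rfl fun i _ => ?_
    rw [Algebra.smul_def]
    ring
  rw [Finset.sum_congr rfl hE, Finset.sum_comm]
  refine Finset.sum_eq_zero fun i _ => ?_
  rw [← Finset.mul_sum, hD i, mul_zero]

end descent

/-! ### the relations between `1, j, j_p` -/

section relations

local notation "Qb" => AlgebraicClosure ℚ

variable (p : ℕ) [NeZero p]

/-- the integral relation with coefficients `c` -/
def mp2Poly (T : Finset (Fin 3 →₀ ℕ)) (c : (Fin 3 →₀ ℕ) → ℤ) : Polynomial (Polynomial ℤ) :=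
  ∑ d ∈ T, Polynomial.C (Polynomial.C (c d) * Polynomial.X ^ d 1) * Polynomial.X ^ d 2

theorem mp2Poly_eval₂ (T : Finset (Fin 3 →₀ ℕ)) (c : (Fin 3 →₀ ℕ) → ℤ) :
    (mp2Poly T c).eval₂ evalAtJ (jqN p) = ∑ d ∈ T, (c d : ℚ) • (jq ^ d 1 * jqN p ^ d 2) := by
  unfold mp2Poly
  rw [Polynomial.eval₂_finsetSum]
  refine Finset.sum_congr rfl fun d _ => ?_
  rw [Polynomial.eval₂_mul, Polynomial.eval₂_C, Polynomial.eval₂_pow, Polynomial.eval₂_X,
    map_mul, map_pow, evalAtJ_X, Int.cast_smul_eq_zsmul, zsmul_eq_mul, mul_assoc]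
  congr 1
  simp [evalAtJ]

theorem mp2Poly_eval2 (T : Finset (Fin 3 →₀ ℕ)) (c : (Fin 3 →₀ ℕ) → ℤ) (a b : Qb) :
    eval2 (mp2Poly T c) a b = ∑ d ∈ T, (c d : Qb) * (a ^ d 1 * b ^ d 2) := by
  unfold mp2Poly eval2
  rw [Polynomial.eval₂_finsetSum]
  refine Finset.sum_congr rfl fun d _ => ?_
  rw [Polynomial.eval₂_mul, Polynomial.eval₂_C, Polynomial.eval₂_pow, Polynomial.eval₂_X,
    map_mul, map_pow, mul_assoc]
  congr 1
  · simp
  · simp

/-- every relation over `ℚ̄` between `1, j, j_p` vanishes at `(1, a, b)` -/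
theorem mp2_relations (a b : Qb)
    (hab : ∀ P : Polynomial (Polynomial ℤ), IsJRel p P → eval2 P a b = 0)
    (jx jpx : modularFunctionFieldBar p)
    (hjx : (jx : LaurentSeries Qb) = coeffEmb Qb jq)
    (hjpx : (jpx : LaurentSeries Qb) = coeffEmb Qb (jqN p))
    (G : MvPolynomial (Fin 3) Qb) (hG : MvPolynomial.aeval ![1, jx, jpx] G = 0) :
    MvPolynomial.eval ![1, a, b] G = 0 := by
  rw [MvPolynomial.eval_eq']
  have h1 : ∀ d ∈ G.support, MvPolynomial.coeff d G * ∏ i, (![1, a, b] : Fin 3 → Qb) i ^ d i =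
      MvPolynomial.coeff d G * (a ^ d 1 * b ^ d 2) := by
    intro d _
    rw [Fin.prod_univ_three]
    simp
  rw [Finset.sum_congr rfl h1]
  refine mp2_descent G.support (fun d => MvPolynomial.coeff d G)
    (fun d => jq ^ d 1 * jqN p ^ d 2) (fun d => a ^ d 1 * b ^ d 2) ?_ ?_
  · -- the relation in the field of Laurent series
    have h2 := congrArg (fun x : modularFunctionFieldBar p => (x : LaurentSeries Qb)) hG
    simp only [ZeroMemClass.coe_zero] at h2
    rw [← h2, MvPolynomial.aeval_def, MvPolynomial.eval₂_eq']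
    push_cast
    refine Finset.sum_congr rfl fun d _ => ?_
    rw [Fin.prod_univ_three]
    simp only [Matrix.cons_val_zero, Matrix.cons_val_one, Matrix.cons_val, map_mul, map_pow]
    rw [← hjx, ← hjpx, OneMemClass.coe_one, one_pow, one_mul]
  · intro c hc
    have h3 : IsJRel p (mp2Poly G.support c) := by
      unfold IsJRel
      rw [mp2Poly_eval₂]
      exact hc
    have h4 := hab _ h3
    rwa [mp2Poly_eval2] at h4

end relations

/-! ### the place -/

section main

local notation "Qb" => AlgebraicClosure ℚ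

variable (p : ℕ) [NeZero p]

open Fermat.Agent.S17 in
/-- **MP2**: a point `(a, b)` of the plane model of `X₀(p)` (all relations between `j(q)` and
`j(q^p)` with integer coefficients vanish at `(a, b)`) is the image of a place `x` of the function
field of `X₀(p)` over `ℚ̄`: `j` and `j_p` are regular at `x`, `j(x) = a` and `j_p(x) = b`.
Here `jx`, `jpx` are any elements of the function field with the `q`-expansions `j(q)`, `j(q^p)`. -/
theorem exists_place_of_isJRel (a b : Qb)
    (hab : ∀ P : Polynomial (Polynomial ℤ), IsJRel p P → eval2 P a b = 0)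
    (jx jpx : modularFunctionFieldBar p)
    (hjx : (jx : LaurentSeries Qb) = coeffEmb Qb jq)
    (hjpx : (jpx : LaurentSeries Qb) = coeffEmb Qb (jqN p)) :
    ∃ x : Place Qb (modularFunctionFieldBar p),
      0 ≤ x.ord jx ∧ 0 ≤ x.ord jpx ∧ Pts.ev x jx = a ∧ Pts.ev x jpx = b := by
  have h := Fermat.Agent.RRMod.isRRField_bar p
  have hy : (![1, a, b] : Fin 3 → Qb) ≠ 0 := by
    intro h0
    have := congrFun h0 0
    simp at this
  obtain ⟨P, i₀, c, hz0, hord, hval⟩ := Closed.closed_image_of_placesExhaust h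
    (fun O hO hK => Closed.exists_place_eq h O hO hK)
    (![1, jx, jpx] : Fin 3 → modularFunctionFieldBar p) ![1, a, b] hy
    (fun G _ hG => mp2_relations p a b hab jx jpx hjx hjpx G hG)
  set u : modularFunctionFieldBar p := (![1, jx, jpx] : Fin 3 → modularFunctionFieldBar p) i₀
    with hu
  have h0 := hval 0
  have hord0 := hord 0
  simp only [Matrix.cons_val_zero] at h0 hord0
  have hev : Pts.ev P (1 / u) ≠ 0 := by
    intro h1
    rw [h1, mul_zero] at h0
    exact one_ne_zero h0
  have hune : (1 / u) ≠ 0 := one_div_ne_zero hz0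
  have hordu' : P.ord (1 / u) = 0 := by
    by_contra hcon
    have hpos : 0 < P.ord (1 / u) := lt_of_le_of_ne hord0 (Ne.symm hcon)
    exact hev ((Pts.ev_eq_zero_iff h P hune hord0).2 hpos)
  have hordu : P.ord u = 0 := by
    rw [one_div, P.ord_inv] at hordu'
    omega
  have hevu : Pts.ev P u = c := by
    have h1 := Pts.ev_inv h P hordu
    have hne : Pts.ev P u ≠ 0 := Pts.ev_ne_zero_of_ord_eq_zero h P hz0 hordu
    rw [one_div, h1] at h0
    field_simp at h0
    exact h0
  have key : ∀ i, 0 ≤ P.ord ((![1, jx, jpx] : Fin 3 → modularFunctionFieldBar p) i) ∧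
      Pts.ev P ((![1, jx, jpx] : Fin 3 → modularFunctionFieldBar p) i) =
        (![1, a, b] : Fin 3 → Qb) i := by
    intro i
    have h1 : (![1, jx, jpx] : Fin 3 → modularFunctionFieldBar p) i =
        ((![1, jx, jpx] : Fin 3 → modularFunctionFieldBar p) i / u) * u :=
      (div_mul_cancel₀ _ hz0).symm
    have h2 := hord i
    constructor
    · rcases eq_or_ne ((![1, jx, jpx] : Fin 3 → modularFunctionFieldBar p) i) 0 with h3 | h3
      · rw [h3, Place.ord_zero]
      · rw [h1, P.ord_mul (div_ne_zero h3 hz0) hz0, hordu, add_zero]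
        exact h2
    · rw [h1, Pts.ev_mul h P h2 hordu.ge, hevu, hval i]
      ring
  exact ⟨P, (key 1).1, (key 2).1, (key 1).2, (key 2).2⟩

end main

end Fermat.Agent.EMC
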