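/-
Cluster E' (S15), seat E-MC / MP-ASM (helper15): **the moduli point** `ES15.ModuliPoint p`
from  MP1 (`ModEqStatement p`, the modular equation),  MP2 (`exists_place_of_isJRel`),
MPQ (rationality of `j(E)`, `j(E/⟨Q⟩)`),  L1 (`ES12.L1Statement p`, `Q ∉ E⁰`)  and
MP3-zero (`ZeroValStatement p`, `Q ∈ E⁰`).
-/
import Fermat.Agent.E.MC.Statements
import Fermat.Agent.E.MC.Place
import Fermat.Agent.E.S15.Interfaces
import Fermat.Agent.E.S12.Leaves
import Fermat.Agent.E.S12.StepAux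

set_option autoImplicit false
set_option linter.unusedSectionVars false

noncomputable section

namespace Fermat.Agent.EMC

open WeierstrassCurve ModularCurve Fermat.Agent.ES12

/-- **MPQ** rationality: for `W` over `ℤ` and a Galois-fixed point `Q` of order `p`,
`j(W)` and `j(W/⟨Q⟩)` are rational numbers. -/
def RationalStatement (p : ℕ) : Prop :=
  ∀ (W : WeierstrassCurve ℤ), W.Δ ≠ 0 → ∀ Q : Pts W, (∀ σ : GQ, σ • Q = Q) → addOrderOf Q = p →
    ∃ a b : ℚ, algebraMap ℚ Qb a = jInv (CurveQb W) ∧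
      algebraMap ℚ Qb b =
        jInv (EV.veluCurve (CurveQb W) (AddSubgroup.zmultiples Q : Set (Pts W)))

/-- **MP3-zero** (the shape of `ES12.L1Statement`, cases swapped): a point of order `p` in the zero
component at a multiplicative prime `ℓ ≠ p`. -/
def ZeroValStatement (p : ℕ) : Prop :=
  ∀ (W : WeierstrassCurve ℤ), W.Δ ≠ 0 → ∀ ℓ : ℕ, ℓ.Prime → ℓ ≠ p → (ℓ : ℤ) ∣ W.Δ →
    ¬ (ℓ : ℤ) ∣ W.c₄ → ∀ A : ValuationSubring Qb, A.LiesOverPrime ℓ →
      ∀ Q : Pts W, addOrderOf Q = p → W.InZeroComponentAt A Q →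
        A.valuation (EV.veluCurve (CurveQb W) (AddSubgroup.zmultiples Q : Set (Pts W))).c₄ = 1 ∧
        A.valuation (EV.veluCurve (CurveQb W) (AddSubgroup.zmultiples Q : Set (Pts W))).Δ
          = A.valuation ((W.Δ : ℤ) : Qb) ^ p

/-- MP2 in the form used by `ES15.ModuliPoint`. -/
theorem exists_place_valAt (p : ℕ) [NeZero p] (a b : Qb)
    (hab : ∀ P : Polynomial (Polynomial ℤ), IsJRel p P → eval2 P a b = 0) :
    ∃ x : ES15.Pl p, ES15.ValAt x (ES15.jB p) a ∧ ES15.ValAt x (ES15.jpB p) b := by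
  obtain ⟨x, h1, h2, h3, h4⟩ := exists_place_of_isJRel p a b hab (ES15.jB p) (ES15.jpB p)
    (by
      show coeffEmb Qb (qExpand ℚ 1 jq) = coeffEmb Qb jq
      rw [qExpand_one_apply]) rfl
  refine ⟨x, ?_, ?_⟩
  · have := Fermat.Agent.S17.Pts.congAt_ev (Fermat.Agent.RRMod.isRRField_bar p) x h1
    rwa [h3] at this
  · have := Fermat.Agent.S17.Pts.congAt_ev (Fermat.Agent.RRMod.isRRField_bar p) x h2
    rwa [h4] at this

theorem curveQb_Δ (W : WeierstrassCurve ℤ) : (CurveQb W).Δ = ((W.Δ : ℤ) : Qb) := by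
  show ((W.map (Int.castRingHom ℚ)).map (algebraMap ℚ Qb)).Δ = _
  rw [WeierstrassCurve.map_Δ, WeierstrassCurve.map_Δ]
  simp

theorem curveQb_c₄ (W : WeierstrassCurve ℤ) : (CurveQb W).c₄ = ((W.c₄ : ℤ) : Qb) := by
  show ((W.map (Int.castRingHom ℚ)).map (algebraMap ℚ Qb)).c₄ = _
  rw [WeierstrassCurve.map_c₄, WeierstrassCurve.map_c₄]
  simp

/-- **(MP)** the moduli point, from its five inputs. -/
theorem moduliPoint_of {p : ℕ} (hp : p.Prime)
    (hMP1 : @ModEqStatement p ⟨hp.ne_zero⟩) (hQ : RationalStatement p)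
    (hL1 : L1Statement p) (hZ : ZeroValStatement p) :
    @ES15.ModuliPoint p ⟨hp.ne_zero⟩ := by
  have : NeZero p := ⟨hp.ne_zero⟩
  intro W hΔ Q hfix hord
  obtain ⟨a, b, ha, hb⟩ := hQ W hΔ Q hfix hord
  have hcard : Nat.card (AddSubgroup.zmultiples Q) = p := by
    rw [Nat.card_zmultiples, hord]
  have hΔ' : (CurveQb W).Δ ≠ 0 := by
    rw [curveQb_Δ]
    exact_mod_cast hΔ
  have hrel : ∀ P : Polynomial (Polynomial ℤ), IsJRel p P →
      eval2 P (algebraMap ℚ Qb a) (algebraMap ℚ Qb b) = 0 := by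
    intro P hP
    rw [ha, hb]
    exact hMP1 (CurveQb W) hΔ' (AddSubgroup.zmultiples Q) hcard P hP
  obtain ⟨x, hx1, hx2⟩ := exists_place_valAt p _ _ hrel
  refine ⟨a, b, x, hx1, hx2, ?_⟩
  intro ℓ hℓ hℓp hdvd hc4 A hA
  have hvΔ : A.valuation ((W.Δ : ℤ) : Qb) < 1 :=
    (valuation_intCast_lt_one_iff hℓ A hA _).mpr hdvd
  have hvΔ0 : 0 < A.valuation ((W.Δ : ℤ) : Qb) := by
    rw [Valuation.pos_iff]
    exact_mod_cast hΔ
  have hvc4 : A.valuation ((W.c₄ : ℤ) : Qb) = 1 :=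
    stepAux_valuation_intCast_eq_one hℓ A hA hc4
  have hva : A.valuation (algebraMap ℚ Qb a) = (A.valuation ((W.Δ : ℤ) : Qb))⁻¹ := by
    rw [ha, jInv, curveQb_Δ, curveQb_c₄, map_div₀, map_pow, hvc4, one_pow, one_div]
  refine ⟨?_, ?_, ?_⟩
  · rw [← A.valuation_le_one_iff, hva, not_le]
    exact (one_lt_inv₀ hvΔ0).mpr hvΔ
  · intro hnz
    obtain ⟨h1, h2⟩ := hL1 W hΔ ℓ hℓ hdvd hc4 A hA Q hord hnz
    rw [hva, hb, jInv, map_div₀, map_pow, h1, one_pow, one_div, inv_pow, h2]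
  · intro hz
    obtain ⟨h1, h2⟩ := hZ W hΔ ℓ hℓ hℓp hdvd hc4 A hA Q hord hz
    rw [hva, hb, jInv, map_div₀, map_pow, h1, one_pow, one_div, h2, inv_pow]

end Fermat.Agent.EMC
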