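/-
Cluster E' (S15), seat E-MC / MPQ (helper47): **rationality of the moduli point**.
For `W` over `ℤ` and a Galois-fixed point `Q` of `W(ℚ̄)`, the `j`-invariants of `W_ℚ̄` and of Vélu's
quotient of `W_ℚ̄` by `⟨Q⟩` are rational numbers (`rational : RationalStatement p`, every `p`).

Proof: every point of `⟨Q⟩` is Galois-fixed, so its `x`-coordinate is rational
(`EP.exists_ratCast_of_fixed`); Vélu's sums are `finsum`s of rational numbers.
-/
import Fermat.Agent.E.MC.Moduli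
import Fermat.Agent.E.S12.AtTwo

set_option autoImplicit false

noncomputable section

namespace Fermat.Agent.EMC

open WeierstrassCurve Fermat.Agent.ES12 Fermat.Agent.EV

/-- the subfield `ℚ ⊆ ℚ̄`. -/
def mpqRat : Subfield Qb := (algebraMap ℚ Qb).fieldRange

theorem mpq_mem_iff (x : Qb) : x ∈ mpqRat ↔ ∃ r : ℚ, algebraMap ℚ Qb r = x :=
  RingHom.mem_fieldRange

theorem mpq_intCast_mem (n : ℤ) : ((n : ℤ) : Qb) ∈ mpqRat := intCast_mem mpqRat n

theorem mpq_mem_of_fixed (x : Qb) (h : ∀ σ : GQ, σ x = x) : x ∈ mpqRat := by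
  obtain ⟨r, hr⟩ := Fermat.Agent.EP.exists_ratCast_of_fixed x h
  exact (mpq_mem_iff x).mpr ⟨r, by rw [← hr]; rfl⟩

variable {W : WeierstrassCurve ℤ}

theorem mpq_fixed_of_mem_zmultiples {Q : Pts W} (hfix : ∀ σ : GQ, σ • Q = Q) {P : Pts W}
    (hP : P ∈ AddSubgroup.zmultiples Q) (σ : GQ) : σ • P = P := by
  obtain ⟨n, rfl⟩ := AddSubgroup.mem_zmultiples_iff.mp hP
  rw [WeierstrassCurve.Affine.Point.algEquiv_smul_zsmul, hfix σ]

theorem mpq_ptX_mem {Q : Pts W} (hfix : ∀ σ : GQ, σ • Q = Q) {P : Pts W}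
    (hP : P ∈ AddSubgroup.zmultiples Q) : ptX P ∈ mpqRat := by
  refine mpq_mem_of_fixed _ (fun σ => ?_)
  rw [← ptX_smul, mpq_fixed_of_mem_zmultiples hfix hP σ]

theorem mpq_veluT_mem {Q : Pts W} (hfix : ∀ σ : GQ, σ • Q = Q) {P : Pts W}
    (hP : P ∈ AddSubgroup.zmultiples Q) : veluT (CurveQb W) P ∈ mpqRat := by
  have hx := mpq_ptX_mem hfix hP
  unfold veluT
  rw [curveQb_b₂, curveQb_b₄]
  exact add_mem (add_mem (mul_mem (ofNat_mem _ 6) (pow_mem hx 2))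
    (mul_mem (mpq_intCast_mem _) hx)) (mpq_intCast_mem _)

theorem mpq_veluU_mem {Q : Pts W} (hfix : ∀ σ : GQ, σ • Q = Q) {P : Pts W}
    (hP : P ∈ AddSubgroup.zmultiples Q) : veluU (CurveQb W) P ∈ mpqRat := by
  have hx := mpq_ptX_mem hfix hP
  unfold veluU
  rw [curveQb_b₂, curveQb_b₄, curveQb_b₆]
  exact add_mem (add_mem (add_mem (mul_mem (ofNat_mem _ 4) (pow_mem hx 3))
    (mul_mem (mpq_intCast_mem _) (pow_mem hx 2)))
    (mul_mem (mul_mem (ofNat_mem _ 2) (mpq_intCast_mem _)) hx)) (mpq_intCast_mem _)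

theorem mpq_veluSumT_mem {Q : Pts W} (hfix : ∀ σ : GQ, σ • Q = Q) :
    veluSumT (CurveQb W) (AddSubgroup.zmultiples Q : Set (Pts W)) ∈ mpqRat := by
  unfold veluSumT
  refine div_mem ?_ (ofNat_mem _ 2)
  refine finsum_induction (· ∈ mpqRat) (zero_mem _) (fun _ _ => add_mem) (fun P => ?_)
  refine finsum_induction (· ∈ mpqRat) (zero_mem _) (fun _ _ => add_mem) (fun hP => ?_)
  exact mpq_veluT_mem hfix hP.1

theorem mpq_veluSumW_mem {Q : Pts W} (hfix : ∀ σ : GQ, σ • Q = Q) :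
    veluSumW (CurveQb W) (AddSubgroup.zmultiples Q : Set (Pts W)) ∈ mpqRat := by
  unfold veluSumW
  refine div_mem ?_ (ofNat_mem _ 2)
  refine finsum_induction (· ∈ mpqRat) (zero_mem _) (fun _ _ => add_mem) (fun P => ?_)
  refine finsum_induction (· ∈ mpqRat) (zero_mem _) (fun _ _ => add_mem) (fun hP => ?_)
  exact add_mem (mpq_veluU_mem hfix hP.1)
    (mul_mem (mpq_ptX_mem hfix hP.1) (mpq_veluT_mem hfix hP.1))

/-- `c₄³/Δ` of a curve with coefficients in a subfield lies in the subfield. -/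
theorem mpq_jInv_mem {k : Type*} [Field k] (S : Subfield k) (E : WeierstrassCurve k)
    (h₁ : E.a₁ ∈ S) (h₂ : E.a₂ ∈ S) (h₃ : E.a₃ ∈ S) (h₄ : E.a₄ ∈ S) (h₆ : E.a₆ ∈ S) :
    jInv E ∈ S := by
  have hb₂ : E.b₂ ∈ S := by
    rw [WeierstrassCurve.b₂]
    exact add_mem (pow_mem h₁ 2) (mul_mem (ofNat_mem _ 4) h₂)
  have hb₄ : E.b₄ ∈ S := by
    rw [WeierstrassCurve.b₄]
    exact add_mem (mul_mem (ofNat_mem _ 2) h₄) (mul_mem h₁ h₃)
  have hb₆ : E.b₆ ∈ S := by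
    rw [WeierstrassCurve.b₆]
    exact add_mem (pow_mem h₃ 2) (mul_mem (ofNat_mem _ 4) h₆)
  have hb₈ : E.b₈ ∈ S := by
    rw [WeierstrassCurve.b₈]
    exact sub_mem (add_mem (sub_mem (add_mem (mul_mem (pow_mem h₁ 2) h₆)
      (mul_mem (mul_mem (ofNat_mem _ 4) h₂) h₆)) (mul_mem (mul_mem h₁ h₃) h₄))
      (mul_mem h₂ (pow_mem h₃ 2))) (pow_mem h₄ 2)
  have hc₄ : E.c₄ ∈ S := by
    rw [WeierstrassCurve.c₄]
    exact sub_mem (pow_mem hb₂ 2) (mul_mem (ofNat_mem _ 24) hb₄)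
  have hΔ : E.Δ ∈ S := by
    rw [WeierstrassCurve.Δ]
    exact add_mem (sub_mem (sub_mem (mul_mem (neg_mem (pow_mem hb₂ 2)) hb₈)
      (mul_mem (ofNat_mem _ 8) (pow_mem hb₄ 3))) (mul_mem (ofNat_mem _ 27) (pow_mem hb₆ 2)))
      (mul_mem (mul_mem (mul_mem (ofNat_mem _ 9) hb₂) hb₄) hb₆)
  exact div_mem (pow_mem hc₄ 3) hΔ

/-- **MPQ** (no hypothesis on `Δ` or on the order is needed). -/
theorem rational_of_fixed (W : WeierstrassCurve ℤ) (Q : Pts W) (hfix : ∀ σ : GQ, σ • Q = Q) :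
    ∃ a b : ℚ, algebraMap ℚ Qb a = jInv (CurveQb W) ∧
      algebraMap ℚ Qb b =
        jInv (EV.veluCurve (CurveQb W) (AddSubgroup.zmultiples Q : Set (Pts W))) := by
  have h₁ : (CurveQb W).a₁ ∈ mpqRat := by rw [curveQb_a₁]; exact mpq_intCast_mem _
  have h₂ : (CurveQb W).a₂ ∈ mpqRat := by rw [curveQb_a₂]; exact mpq_intCast_mem _
  have h₃ : (CurveQb W).a₃ ∈ mpqRat := by rw [curveQb_a₃]; exact mpq_intCast_mem _
  have h₄ : (CurveQb W).a₄ ∈ mpqRat := by rw [curveQb_a₄]; exact mpq_intCast_mem _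
  have h₆ : (CurveQb W).a₆ ∈ mpqRat := by rw [curveQb_a₆]; exact mpq_intCast_mem _
  have hb₂ : (CurveQb W).b₂ ∈ mpqRat := by rw [curveQb_b₂]; exact mpq_intCast_mem _
  have hT := mpq_veluSumT_mem hfix
  have hW := mpq_veluSumW_mem hfix
  obtain ⟨a, ha⟩ := (mpq_mem_iff _).mp (mpq_jInv_mem mpqRat (CurveQb W) h₁ h₂ h₃ h₄ h₆)
  obtain ⟨b, hb⟩ := (mpq_mem_iff _).mp (mpq_jInv_mem mpqRat
    (EV.veluCurve (CurveQb W) (AddSubgroup.zmultiples Q : Set (Pts W))) h₁ h₂ h₃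
    (sub_mem h₄ (mul_mem (ofNat_mem _ 5) hT))
    (sub_mem (sub_mem h₆ (mul_mem hb₂ hT)) (mul_mem (ofNat_mem _ 7) hW)))
  exact ⟨a, b, ha, hb⟩

/-- **MPQ** in the form of `RationalStatement`. -/
theorem rational (p : ℕ) : RationalStatement p :=
  fun W _ Q hfix _ => rational_of_fixed W Q hfix

end Fermat.Agent.EMC
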