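/-
Cluster E' (S15), seat E-MC (helper15): **(MP) the moduli point**, assembled:
`ES15.ModuliPoint p` for every odd prime `p`, from MP3-zero (`ZeroValStatement p`, helper4).
(MP1 = `modEq`, MPQ = `rational` (helper47), L1 = `ES12.l1Statement` (helper45), MP2 inside `moduliPoint_of`.)
-/
import Fermat.Agent.E.MC.Moduli
import Fermat.Agent.E.MC.ModEq
import Fermat.Agent.E.MC.Rational
import Fermat.Agent.E.S12.L1

set_option autoImplicit false

noncomputable section

namespace Fermat.Agent.EMC

/-- **(MP)** from MP3-zero. -/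
theorem moduliPoint_of_zero {p : ℕ} (hp : p.Prime) (hp2 : p ≠ 2) (hZ : ZeroValStatement p) :
    @ES15.ModuliPoint p ⟨hp.ne_zero⟩ :=
  moduliPoint_of hp (@modEq p ⟨hp⟩) (rational p) (ES12.l1Statement hp hp2) hZ

end Fermat.Agent.EMC
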