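/-
Cluster E' (Mazur), seat MP3-zero (helper4): `EMC.ZeroValStatement p` (`E/MC/Moduli.lean`) from
Vélu's theorem (V1) and the explicit `x`-map (V1x).  Proof: `E/MC/Zero/*.lean`.
-/
import Mathlib
import Fermat.Agent.E.MC.Zero.Final
import Fermat.Agent.E.MC.Moduli

set_option autoImplicit false

namespace Fermat.Agent.EMZ

open Fermat.Agent.EV Fermat.Agent.ES12

/-- **(MP3-zero)** -/
theorem zeroValStatement {p : ℕ} (hp : p.Prime) (hp2 : p ≠ 2) (hV : VeluStatement)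
    (hVx : VeluXAll Qb) : Fermat.Agent.EMC.ZeroValStatement p :=
  fun W hΔ ℓ hℓ hℓp hdvd hc₄ A hA Q hQ hz =>
    zeroVal_of hp hp2 hV hVx W hΔ ℓ hℓ hℓp hdvd hc₄ A hA Q hQ hz

end Fermat.Agent.EMZ
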