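/-
Cluster E' (S15), seat E-MC (helper15): **(MP) the moduli point, DONE**:
`moduliPoint hp hp2 : ES15.ModuliPoint p` for every odd prime `p`.

Inputs: MP1 `modEq` (helper15 + helper47/18/77/13/64), MP2 `exists_place_of_isJRel` (helper27),
MPQ `rational` (helper47), L1 `ES12.l1Statement` (helper45), MP3-zero `EMZ.zeroValStatement`
(helper4 + helper51/77/7), Vélu `Velu.veluStatement`, `Velu.veluXFormula` (helper52 + helper51).
-/
import Fermat.Agent.E.MC.MP
import Fermat.Agent.E.MC.Zero
import Fermat.Agent.E.Velu.Final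
import Fermat.Agent.E.Velu.V1x

set_option autoImplicit false

noncomputable section

namespace Fermat.Agent.EMC

open Fermat.Agent.ES12

/-- (V1x) for all curves over `ℚ̄`. -/
theorem veluXAll_Qb : Fermat.Agent.EMZ.VeluXAll Qb := by
  intro W _ C hfin _
  exact Fermat.Agent.Velu.veluXFormula (W := W) (C := C) hfin (by norm_num)

/-- MP3-zero. -/
theorem zeroVal {p : ℕ} (hp : p.Prime) (hp2 : p ≠ 2) : ZeroValStatement p :=
  Fermat.Agent.EMZ.zeroValStatement hp hp2 Fermat.Agent.Velu.veluStatement veluXAll_Qb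

/-- **(MP)** the moduli point of `(W, ⟨Q⟩)` on `X₀(p)` and its position at the multiplicative
primes, for every odd prime `p`. -/
theorem moduliPoint {p : ℕ} (hp : p.Prime) (hp2 : p ≠ 2) : @ES15.ModuliPoint p ⟨hp.ne_zero⟩ :=
  moduliPoint_of_zero hp hp2 (zeroVal hp hp2)

end Fermat.Agent.EMC
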