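import Fermat.Agent.E.S12.L1
import Fermat.Agent.E.MC.Defs

/-!
# Cluster E' (Mazur, S15), seat E-MC, leaf MP3a (helper45)

The valuations of `a = j(W)` and `b = j(W / ⟨Q⟩)` at a multiplicative prime `ℓ`:

* `jInv_notMem`: `a ∉ A` (both cases);
* `valA`: `v(a) = v(b) ^ p` when `Q` is outside the zero component (from `ES12.l1Statement`);
* `valB_of_val`: `v(b) = v(a) ^ p` from `v(c₄') = 1`, `v(Δ') = v(Δ) ^ p`
  (the conclusion of the zero-component statement).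
-/

set_option autoImplicit false
set_option linter.unusedSectionVars false

open WeierstrassCurve WeierstrassCurve.Affine

namespace Fermat.Agent.EMC

open Fermat.Agent.EV Fermat.Agent.ES12 S05H5

local notation "Qb" => AlgebraicClosure ℚ

/-- the valuation of `j` when `c₄` is a unit -/
lemma val_jInv_of_c₄ {K : Type*} [Field K] {Γ₀ : Type*} [LinearOrderedCommGroupWithZero Γ₀]
    (v : Valuation K Γ₀) (W : WeierstrassCurve K) (hc : v W.c₄ = 1) :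
    v (jInv W) = (v W.Δ)⁻¹ := by
  rw [jInv, map_div₀, map_pow, hc, one_pow, one_div]

/-- the invariants of the base change of an integral model -/
lemma mc_curve_c₄ (W : WeierstrassCurve ℤ) : (CurveQb W).c₄ = ((W.c₄ : ℤ) : Qb) := by
  show ((W.map (Int.castRingHom ℚ)).map (algebraMap ℚ Qb)).c₄ = _
  rw [WeierstrassCurve.map_c₄, WeierstrassCurve.map_c₄]
  simp

lemma mc_curve_Δ (W : WeierstrassCurve ℤ) : (CurveQb W).Δ = ((W.Δ : ℤ) : Qb) := by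
  show ((W.map (Int.castRingHom ℚ)).map (algebraMap ℚ Qb)).Δ = _
  rw [WeierstrassCurve.map_Δ, WeierstrassCurve.map_Δ]
  simp

/-- at a multiplicative prime `c₄` is a unit -/
lemma val_mc_c₄ (W : WeierstrassCurve ℤ) {ℓ : ℕ} (hℓ : ℓ.Prime) (hc₄ : ¬ (ℓ : ℤ) ∣ W.c₄)
    (A : ValuationSubring Qb) (hA : A.LiesOverPrime ℓ) : A.valuation (CurveQb W).c₄ = 1 := by
  rw [mc_curve_c₄]
  exact v_intCast_eq_one A.valuation hℓ (A.mem_nonunits_iff.mp hA) hc₄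

/-- at a multiplicative prime `Δ` is a nonunit -/
lemma val_mc_Δ (W : WeierstrassCurve ℤ) {ℓ : ℕ} (hdvd : (ℓ : ℤ) ∣ W.Δ)
    (A : ValuationSubring Qb) (hA : A.LiesOverPrime ℓ) : A.valuation (CurveQb W).Δ < 1 := by
  rw [mc_curve_Δ]
  exact v_intCast_lt_one A.valuation (A.mem_nonunits_iff.mp hA) hdvd

/-- the valuation of `j(W)` at a multiplicative prime -/
lemma val_jInv_curveQb (W : WeierstrassCurve ℤ) {ℓ : ℕ} (hℓ : ℓ.Prime) (hc₄ : ¬ (ℓ : ℤ) ∣ W.c₄)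
    (A : ValuationSubring Qb) (hA : A.LiesOverPrime ℓ) :
    A.valuation (jInv (CurveQb W)) = (A.valuation ((W.Δ : ℤ) : Qb))⁻¹ := by
  rw [val_jInv_of_c₄ A.valuation (CurveQb W) (val_mc_c₄ W hℓ hc₄ A hA), mc_curve_Δ]

/-- **(MP3, `a ∉ A`)** `j(W)` is not integral at a multiplicative prime. -/
theorem jInv_notMem (W : WeierstrassCurve ℤ) (hΔ : W.Δ ≠ 0) {ℓ : ℕ} (hℓ : ℓ.Prime)
    (hdvd : (ℓ : ℤ) ∣ W.Δ) (hc₄ : ¬ (ℓ : ℤ) ∣ W.c₄) (A : ValuationSubring Qb)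
    (hA : A.LiesOverPrime ℓ) : jInv (CurveQb W) ∉ A := by
  intro hmem
  have h1 : A.valuation (jInv (CurveQb W)) ≤ 1 := (A.valuation_le_one_iff _).mpr hmem
  rw [val_jInv_curveQb W hℓ hc₄ A hA] at h1
  have h2 : A.valuation ((W.Δ : ℤ) : Qb) < 1 := by
    rw [← mc_curve_Δ]
    exact val_mc_Δ W hdvd A hA
  have h0 : A.valuation ((W.Δ : ℤ) : Qb) ≠ 0 := by
    rw [ne_eq, map_eq_zero]
    exact_mod_cast hΔ
  have h3 : 1 < (A.valuation ((W.Δ : ℤ) : Qb))⁻¹ := (one_lt_inv₀ (zero_lt_iff.mpr h0)).mpr h2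
  exact absurd h1 (not_le.mpr h3)

/-- **(MP3a)** outside the zero component: `v(j(W)) = v(j(W/⟨Q⟩)) ^ p`. -/
theorem valA {p : ℕ} (hp : p.Prime) (hp2 : p ≠ 2) (W : WeierstrassCurve ℤ) (hΔ : W.Δ ≠ 0)
    {ℓ : ℕ} (hℓ : ℓ.Prime) (hdvd : (ℓ : ℤ) ∣ W.Δ) (hc₄ : ¬ (ℓ : ℤ) ∣ W.c₄)
    (A : ValuationSubring Qb) (hA : A.LiesOverPrime ℓ) (Q : Pts W) (hQ : addOrderOf Q = p)
    (hnz : ¬ W.InZeroComponentAt A Q) :
    A.valuation (jInv (CurveQb W))
      = A.valuation (jInv (veluCurve (CurveQb W) (AddSubgroup.zmultiples Q : Set (Pts W)))) ^ p := by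
  obtain ⟨h1, h2⟩ := l1Statement hp hp2 W hΔ ℓ hℓ hdvd hc₄ A hA Q hQ hnz
  rw [val_jInv_curveQb W hℓ hc₄ A hA, val_jInv_of_c₄ A.valuation _ h1, inv_pow, h2]

/-- **(MP3b, last step)** in the zero component: `v(j(W/⟨Q⟩)) = v(j(W)) ^ p`, from the valuations
of `c₄` and `Δ` of the quotient. -/
theorem valB_of_val {p : ℕ} (W : WeierstrassCurve ℤ)
    {ℓ : ℕ} (hℓ : ℓ.Prime) (hc₄ : ¬ (ℓ : ℤ) ∣ W.c₄)
    (A : ValuationSubring Qb) (hA : A.LiesOverPrime ℓ) (Q : Pts W)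
    (h1 : A.valuation (veluCurve (CurveQb W) (AddSubgroup.zmultiples Q : Set (Pts W))).c₄ = 1)
    (h2 : A.valuation (veluCurve (CurveQb W) (AddSubgroup.zmultiples Q : Set (Pts W))).Δ
      = A.valuation ((W.Δ : ℤ) : Qb) ^ p) :
    A.valuation (jInv (veluCurve (CurveQb W) (AddSubgroup.zmultiples Q : Set (Pts W))))
      = A.valuation (jInv (CurveQb W)) ^ p := by
  rw [val_jInv_curveQb W hℓ hc₄ A hA, val_jInv_of_c₄ A.valuation _ h1, inv_pow, h2]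

end Fermat.Agent.EMC
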